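import Mathlib.GroupTheory.Abelianization.Defs
import Mathlib.LinearAlgebra.Matrix.Charpoly.Coeff
import Mathlib.NumberTheory.ModularForms.CongruenceSubgroups
import Fermat.Prelude.Def_ModularCurve_PeriodMap

/-!
# The quotient of `Γ₀(N)` through which all parabolic homomorphisms factor

`ParQuot N` is the abelianisation of `Γ₀(N)` modulo the classes of the elements of trace squared at
most `4` (parabolic elements, elliptic elements and `±1`).
-/

set_option autoImplicit false

namespace FLTAgent.Periods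

open scoped MatrixGroups
open CongruenceSubgroup

/-- Elements of trace squared at most four: parabolic, elliptic and central elements. -/
def IsEllPar {N : ℕ} (γ : Gamma0 N) : Prop :=
  ((γ : SL(2, ℤ)) : Matrix (Fin 2) (Fin 2) ℤ).trace ^ 2 ≤ 4

/-- The subgroup of the abelianisation spanned by the elliptic and parabolic classes. -/
def ellParSubgroup (N : ℕ) : AddSubgroup (Additive (Abelianization (Gamma0 N))) :=
  AddSubgroup.closure
    ((fun γ : Gamma0 N => Additive.ofMul (Abelianization.of γ)) '' {γ | IsEllPar γ})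

/-- `Γ₀(N)^ab` modulo elliptic and parabolic elements (the integral homology of `X₀(N)`). -/
abbrev ParQuot (N : ℕ) : Type :=
  Additive (Abelianization (Gamma0 N)) ⧸ ellParSubgroup N

/-- The projection `Γ₀(N) → ParQuot N`. -/
def parProj (N : ℕ) : Additive (Gamma0 N) →+ ParQuot N :=
  (QuotientAddGroup.mk' (ellParSubgroup N)).comp
    (MonoidHom.toAdditive (Abelianization.of (G := Gamma0 N)))

theorem parProj_surjective (N : ℕ) : Function.Surjective (parProj N) := by
  intro x
  obtain ⟨y, rfl⟩ := QuotientAddGroup.mk'_surjective (ellParSubgroup N) x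
  obtain ⟨z, hz⟩ := QuotientGroup.mk'_surjective (commutator (Gamma0 N)) (Additive.toMul y)
  exact ⟨Additive.ofMul z, congrArg (QuotientAddGroup.mk' (ellParSubgroup N)) hz⟩

theorem parProj_eq_zero {N : ℕ} {γ : Gamma0 N} (hγ : IsEllPar γ) :
    parProj N (Additive.ofMul γ) = 0 := by
  show QuotientAddGroup.mk' (ellParSubgroup N) (Additive.ofMul (Abelianization.of γ)) = 0
  rw [QuotientAddGroup.mk'_apply, QuotientAddGroup.eq_zero_iff]
  exact AddSubgroup.subset_closure ⟨γ, hγ, rfl⟩

theorem parQuot_hom_ext {N : ℕ} {A : Type*} [AddCommGroup A] {ψ ψ' : ParQuot N →+ A}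
    (h : ψ.comp (parProj N) = ψ'.comp (parProj N)) : ψ = ψ' := by
  refine DFunLike.ext _ _ fun x => ?_
  obtain ⟨y, rfl⟩ := parProj_surjective N x
  exact DFunLike.congr_fun h y

/-- A homomorphism killing all elliptic and parabolic elements factors through `ParQuot N`. -/
def parLift {N : ℕ} {A : Type*} [AddCommGroup A] (φ : Additive (Gamma0 N) →+ A)
    (hφ : ∀ γ : Gamma0 N, IsEllPar γ → φ (Additive.ofMul γ) = 0) : ParQuot N →+ A :=
  QuotientAddGroup.lift (ellParSubgroup N)
    ((MonoidHom.toAdditiveLeft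
      (Abelianization.lift (AddMonoidHom.toMultiplicativeRight φ))))
    (by
      rw [ellParSubgroup, AddSubgroup.closure_le]
      rintro _ ⟨γ, hγ, rfl⟩
      simpa using hφ γ hγ)

@[simp]
theorem parLift_parProj {N : ℕ} {A : Type*} [AddCommGroup A] (φ : Additive (Gamma0 N) →+ A)
    (hφ : ∀ γ : Gamma0 N, IsEllPar γ → φ (Additive.ofMul γ) = 0) (x : Additive (Gamma0 N)) :
    parLift φ hφ (parProj N x) = φ x := by
  rfl

/-- An elliptic element has order dividing twelve. -/
theorem pow_twelve_eq_one_of_trace_sq_lt {g : SL(2, ℤ)}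
    (hg : (g : Matrix (Fin 2) (Fin 2) ℤ).trace ^ 2 < 4) : g ^ 12 = 1 := by
  obtain ⟨t, ht⟩ : ∃ t : ℤ, t = (g : Matrix (Fin 2) (Fin 2) ℤ).trace := ⟨_, rfl⟩
  rw [← ht] at hg
  have hdet := Matrix.det_fin_two (g : Matrix (Fin 2) (Fin 2) ℤ)
  rw [g.det_coe] at hdet
  rw [Matrix.trace_fin_two] at ht
  have hsq : (g : Matrix (Fin 2) (Fin 2) ℤ) * (g : Matrix (Fin 2) (Fin 2) ℤ)
      = t • (g : Matrix (Fin 2) (Fin 2) ℤ) - 1 := by
    ext i j
    rw [Matrix.mul_apply, Matrix.sub_apply, Matrix.smul_apply, Fin.sum_univ_two, smul_eq_mul, ht]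
    fin_cases i <;> fin_cases j <;> simp <;> linarith
  have h12 : (g : Matrix (Fin 2) (Fin 2) ℤ) ^ 12 = 1 := by
    have hlo : -1 ≤ t := by nlinarith
    have hhi : t ≤ 1 := by nlinarith
    have h3 : (g : Matrix (Fin 2) (Fin 2) ℤ) ^ 3
        = (t ^ 2 - 1) • (g : Matrix (Fin 2) (Fin 2) ℤ) - t • 1 := by
      rw [pow_succ, sq, hsq, sub_mul, smul_mul_assoc, hsq, one_mul, smul_sub, smul_smul,
        sub_smul, one_smul, sq]
      abel
    interval_cases t
    · rw [show (12 : ℕ) = 3 * 4 from rfl, pow_mul, h3]; norm_num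
    · rw [show (12 : ℕ) = 2 * 6 from rfl, pow_mul, sq, hsq]; simp [Even.neg_pow (show Even 6 by decide)]
    · rw [show (12 : ℕ) = 3 * 4 from rfl, pow_mul, h3]; norm_num
  apply Subtype.ext
  rw [Matrix.SpecialLinearGroup.coe_pow, h12, Matrix.SpecialLinearGroup.coe_one]

/-- With torsion-free values, parabolic homomorphisms also kill the elliptic elements. -/
theorem apply_eq_zero_of_isEllPar {N : ℕ} {A : Type*} [AddCommGroup A] [IsAddTorsionFree A]
    {φ : Additive (Gamma0 N) →+ A} (hφ : ModularCurve.Period.IsParabolicHom (Gamma0 N) φ)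
    {γ : Gamma0 N} (hγ : IsEllPar γ) : φ (Additive.ofMul γ) = 0 := by
  rcases eq_or_lt_of_le hγ with h | h
  · exact hφ γ h
  · have h12 : γ ^ 12 = 1 := Subtype.ext (by simpa using pow_twelve_eq_one_of_trace_sq_lt h)
    have h0 : (12 : ℕ) • φ (Additive.ofMul γ) = 0 := by
      rw [← map_nsmul, ← ofMul_pow, h12, ofMul_one, map_zero]
    exact (smul_eq_zero_iff_right (by norm_num)).mp h0

/-- Homomorphisms on `ParQuot N` are parabolic homomorphisms. -/
theorem isParabolicHom_comp_parProj {N : ℕ} {A : Type*} [AddCommGroup A] (ψ : ParQuot N →+ A) :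
    ModularCurve.Period.IsParabolicHom (Gamma0 N) (ψ.comp (parProj N)) := by
  intro γ hγ
  rw [AddMonoidHom.comp_apply, parProj_eq_zero (show IsEllPar γ from hγ.le), map_zero]

end FLTAgent.Periods
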