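import Mathlib.GroupTheory.GroupAction.Period
import Mathlib.GroupTheory.GroupAction.Quotient
import Mathlib.LinearAlgebra.Dual.Lemmas
import Mathlib.RingTheory.Finiteness.Prod
import Mathlib.LinearAlgebra.FiniteDimensional.Lemmas
import Mathlib.LinearAlgebra.Matrix.FixedDetMatrices
import Fermat.Agent.Periods.ParQuot

/-!
# An upper bound for the homomorphisms out of `ParQuot N`

A homomorphism on `Γ₀(N)` is a cocycle of `SL(2, ℤ)` with values in the functions on the cosets
`SL(2, ℤ) ⧸ Γ₀(N)`, determined by its values at `S` and `S * T`. Counting the relations at the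
fixed points and at the cusps gives the bound `2 * genus` over every field.
-/

set_option autoImplicit false

noncomputable section

namespace FLTAgent.Periods

open scoped MatrixGroups
open CongruenceSubgroup ModularGroup

/-- The cosets of `Γ₀(N)` in `SL(2, ℤ)`. -/
abbrev Cosets (N : ℕ) : Type := SL(2, ℤ) ⧸ Gamma0 N

/-- The cusps, as orbits of `T` on the cosets. -/
abbrev CuspOrbits (N : ℕ) : Type :=
  MulAction.orbitRel.Quotient (Subgroup.zpowers (T : SL(2, ℤ))) (Cosets N)

/-- The element of `Γ₀(N)` attached to a group element and a coset. -/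
def cell {N : ℕ} (g : SL(2, ℤ)) (x : Cosets N) : Gamma0 N :=
  ⟨(g • x).out⁻¹ * (g * x.out), by
    rw [← QuotientGroup.eq, QuotientGroup.out_eq']
    exact congrArg (g • ·) (QuotientGroup.out_eq' x).symm⟩

theorem cell_mul {N : ℕ} (g h : SL(2, ℤ)) (x : Cosets N) :
    cell (g * h) x = cell g (h • x) * cell h x := by
  apply Subtype.ext
  simp only [cell, Subgroup.coe_mul, mul_smul]
  group

theorem trace_cell_of_fixed {N : ℕ} {g : SL(2, ℤ)} {x : Cosets N} (hx : g • x = x) :
    ((cell g x : SL(2, ℤ)) : Matrix (Fin 2) (Fin 2) ℤ).trace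
      = (g : Matrix (Fin 2) (Fin 2) ℤ).trace := by
  simp only [cell, hx, Matrix.SpecialLinearGroup.coe_mul]
  rw [Matrix.trace_mul_comm, Matrix.mul_assoc, ← Matrix.SpecialLinearGroup.coe_mul, mul_inv_cancel,
    Matrix.SpecialLinearGroup.coe_one, Matrix.mul_one]

theorem neg_one_smul_cosets {N : ℕ} (x : Cosets N) : (-1 : SL(2, ℤ)) • x = x := by
  obtain ⟨g, rfl⟩ := QuotientGroup.mk_surjective x
  rw [MulAction.Quotient.smul_mk, QuotientGroup.eq]
  have : (((-1 : SL(2, ℤ)) • g)⁻¹ * g) = -1 := by simp [smul_eq_mul]
  rw [this, Gamma0_mem]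
  simp

theorem T_pow_smul_cosets {N : ℕ} (x : Cosets N) : T ^ N • x = x := by
  obtain ⟨g, rfl⟩ := QuotientGroup.mk_surjective x
  rw [MulAction.Quotient.smul_mk, QuotientGroup.eq, smul_eq_mul]
  have hT : (T : SL(2, ℤ)) ^ N ∈ Gamma N := by
    simpa [zpow_natCast] using ModularGroup_T_pow_mem_Gamma N N dvd_rfl
  have h := (Gamma_normal N).conj_mem _ (inv_mem hT) g⁻¹
  rw [inv_inv, Gamma_mem] at h
  rw [mul_inv_rev, Gamma0_mem]
  exact h.2.2.1

theorem S_mul_T_pow_three : (S * T) * ((S * T) * (S * T)) = (-1 : SL(2, ℤ)) := by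
  apply Subtype.ext
  simp only [Matrix.SpecialLinearGroup.coe_mul, coe_S, coe_T, Matrix.SpecialLinearGroup.coe_neg,
    Matrix.SpecialLinearGroup.coe_one]
  decide

theorem S_mul_S : S * S = (-1 : SL(2, ℤ)) := by
  apply Subtype.ext
  simp only [Matrix.SpecialLinearGroup.coe_mul, coe_S, Matrix.SpecialLinearGroup.coe_neg,
    Matrix.SpecialLinearGroup.coe_one]
  decide

theorem S_smul_S_smul {N : ℕ} (x : Cosets N) : S • S • x = x := by
  rw [← mul_smul, S_mul_S, neg_one_smul_cosets]

theorem ST_smul_three {N : ℕ} (x : Cosets N) : (S * T) • (S * T) • (S * T) • x = x := by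
  rw [← mul_smul, ← mul_smul, mul_assoc (S * T), S_mul_T_pow_three, neg_one_smul_cosets]

variable (N : ℕ) (K : Type*) [Field K]

/-- The twisted cocycle attached to a homomorphism and a function on the cosets. -/
def twist (g : SL(2, ℤ)) : ((ParQuot N →+ K) × (Cosets N → K)) →ₗ[K] (Cosets N → K) where
  toFun p x := p.1 (parProj N (Additive.ofMul (cell g x))) + (p.2 (g • x) - p.2 x)
  map_add' p q := by funext x; simp; ring
  map_smul' c p := by funext x; simp; ring

variable {N K}

theorem twist_mul (g h : SL(2, ℤ)) (p : (ParQuot N →+ K) × (Cosets N → K)) (x : Cosets N) :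
    twist N K (g * h) p x = twist N K g p (h • x) + twist N K h p x := by
  simp only [twist, LinearMap.coe_mk, AddHom.coe_mk, cell_mul, ofMul_mul, map_add, mul_smul]
  ring

theorem twist_eq_zero_of_fixed {g : SL(2, ℤ)} {x : Cosets N} (hx : g • x = x)
    (hg : (g : Matrix (Fin 2) (Fin 2) ℤ).trace ^ 2 ≤ 4)
    (p : (ParQuot N →+ K) × (Cosets N → K)) : twist N K g p x = 0 := by
  have h : IsEllPar (cell g x) := by rwa [IsEllPar, trace_cell_of_fixed hx]
  simp [twist, parProj_eq_zero h, hx]

theorem twist_neg_one (p : (ParQuot N →+ K) × (Cosets N → K)) (x : Cosets N) :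
    twist N K (-1) p x = 0 :=
  twist_eq_zero_of_fixed (neg_one_smul_cosets x) (by simp) p

theorem twist_one (p : (ParQuot N →+ K) × (Cosets N → K)) (x : Cosets N) :
    twist N K 1 p x = 0 :=
  twist_eq_zero_of_fixed (one_smul _ x) (by simp) p

theorem twist_T_pow (p : (ParQuot N →+ K) × (Cosets N → K)) (n : ℕ) (x : Cosets N) :
    twist N K (T ^ n) p x = ∑ i ∈ Finset.range n, twist N K T p (T ^ i • x) := by
  induction n with
  | zero => simp [twist_one]
  | succ n ih => rw [pow_succ', twist_mul, Finset.sum_range_succ, ih, add_comm]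

/-- A twisted cocycle vanishing at `S` and `S * T` vanishes everywhere. -/
theorem twist_eq_zero (p : (ParQuot N →+ K) × (Cosets N → K))
    (hS : ∀ x, twist N K S p x = 0) (hU : ∀ x, twist N K (S * T) p x = 0) :
    ∀ (g : SL(2, ℤ)) (x : Cosets N), twist N K g p x = 0 := by
  have hT : ∀ x, twist N K T p x = 0 := fun x => by
    have h := hU x
    rwa [twist_mul, hS, zero_add] at h
  intro g
  have hg : g ∈ Subgroup.closure ({S, T} : Set SL(2, ℤ)) := by
    rw [SpecialLinearGroup.SL2Z_generators]; trivial
  induction hg using Subgroup.closure_induction with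
  | mem y hy =>
    rcases hy with rfl | rfl
    · exact hS
    · exact hT
  | one => exact twist_one p
  | mul a b _ _ ha hb => intro x; rw [twist_mul, ha, hb, add_zero]
  | inv a _ ha =>
    intro x
    have h := twist_mul a a⁻¹ p x
    rw [mul_inv_cancel, twist_one, ha, zero_add] at h
    exact h.symm

/-- The map sending a homomorphism and a gauge function to the generator values and a base value
is injective. -/
theorem twist_injective (p : (ParQuot N →+ K) × (Cosets N → K))
    (hS : ∀ x, twist N K S p x = 0) (hU : ∀ x, twist N K (S * T) p x = 0)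
    (h0 : p.2 ((1 : SL(2, ℤ)) : Cosets N) = 0) : p = 0 := by
  have hall := twist_eq_zero p hS hU
  have hhom : ∀ γ : Gamma0 N, p.1 (parProj N (Additive.ofMul γ)) = 0 := by
    intro γ
    have hfix : (γ : SL(2, ℤ)) • ((1 : SL(2, ℤ)) : Cosets N) = ((1 : SL(2, ℤ)) : Cosets N) := by
      rw [MulAction.Quotient.smul_mk, QuotientGroup.eq]
      simp
    obtain ⟨h, hh⟩ := QuotientGroup.mk_out_eq_mul (Gamma0 N) (1 : SL(2, ℤ))
    have hcell : cell (γ : SL(2, ℤ)) ((1 : SL(2, ℤ)) : Cosets N) = h⁻¹ * γ * h := by
      apply Subtype.ext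
      simp only [cell, hfix, hh, one_mul, Subgroup.coe_mul, Subgroup.coe_inv, mul_assoc]
    have hv := hall γ ((1 : SL(2, ℤ)) : Cosets N)
    simpa [twist, hfix, hcell] using hv
  have h1 : p.1 = 0 := parQuot_hom_ext (AddMonoidHom.ext fun γ => hhom (Additive.toMul γ))
  have h2 : p.2 = 0 := by
    funext x
    obtain ⟨g, hg⟩ := MulAction.exists_smul_eq SL(2, ℤ) ((1 : SL(2, ℤ)) : Cosets N) x
    have hv := hall g ((1 : SL(2, ℤ)) : Cosets N)
    simpa [twist, h1, h0, hg] using hv
  exact Prod.ext h1 h2

variable (N K)

/-- The possible values at `S`. -/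
def relS : Submodule K (Cosets N → K) where
  carrier := {a | (∀ x, a x + a (S • x) = 0) ∧ ∀ x, S • x = x → a x = 0}
  zero_mem' := by simp
  add_mem' := by
    intro a b ha hb
    exact ⟨fun x => by simp only [Pi.add_apply]; linear_combination ha.1 x + hb.1 x,
      fun x hx => by simp [ha.2 x hx, hb.2 x hx]⟩
  smul_mem' := by
    intro c a ha
    exact ⟨fun x => by simp only [Pi.smul_apply, smul_eq_mul]; linear_combination c * ha.1 x,
      fun x hx => by simp [ha.2 x hx]⟩

/-- The possible values at `S * T`. -/
def relU : Submodule K (Cosets N → K) where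
  carrier := {b | (∀ x, b x + b ((S * T) • x) + b ((S * T) • (S * T) • x) = 0) ∧
    ∀ x, (S * T) • x = x → b x = 0}
  zero_mem' := by simp
  add_mem' := by
    intro a b ha hb
    exact ⟨fun x => by simp only [Pi.add_apply]; linear_combination ha.1 x + hb.1 x,
      fun x hx => by simp [ha.2 x hx, hb.2 x hx]⟩
  smul_mem' := by
    intro c a ha
    exact ⟨fun x => by simp only [Pi.smul_apply, smul_eq_mul]; linear_combination c * ha.1 x,
      fun x hx => by simp [ha.2 x hx]⟩

variable [NeZero N]

open Classical in
/-- The sums of the values at `T` over the cusps. -/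
def cuspSum [Fintype (Cosets N)] : (↥(relS N K) × ↥(relU N K)) →ₗ[K] (CuspOrbits N → K) where
  toFun p o := ∑ x ∈ Finset.univ.filter (fun x : Cosets N => (Quotient.mk'' x : CuspOrbits N) = o),
    ((p.2 : Cosets N → K) x - (p.1 : Cosets N → K) (T • x))
  map_add' p q := by
    funext o
    simp only [Pi.add_apply, ← Finset.sum_add_distrib]
    refine Finset.sum_congr rfl fun x _ => ?_
    simp only [Prod.fst_add, Prod.snd_add, Submodule.coe_add, Pi.add_apply]
    ring
  map_smul' c p := by
    funext o
    simp only [Pi.smul_apply, smul_eq_mul, RingHom.id_apply, Finset.mul_sum]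
    refine Finset.sum_congr rfl fun x _ => ?_
    simp only [Prod.smul_fst, Prod.smul_snd, Submodule.coe_smul, Pi.smul_apply, smul_eq_mul]
    ring

theorem finrank_relS_le [Fintype (Cosets N)] :
    2 * Module.finrank K (relS N K) + Nat.card {x : Cosets N // S • x = x}
      ≤ Nat.card (Cosets N) := by
  classical
  let e := Fintype.equivFin (Cosets N)
  let R : Finset (Cosets N) := Finset.univ.filter fun x => e x < e (S • x)
  let Φ : relS N K →ₗ[K] (R → K) :=
    { toFun := fun a x => (a : Cosets N → K) x
      map_add' := fun _ _ => rfl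
      map_smul' := fun _ _ => rfl }
  have hΦ : Function.Injective Φ := by
    rw [injective_iff_map_eq_zero]
    rintro ⟨a, ha⟩ h
    have hR : ∀ x, e x < e (S • x) → a x = 0 := fun x hx =>
      congrFun h ⟨x, Finset.mem_filter.mpr ⟨Finset.mem_univ _, hx⟩⟩
    ext x
    show a x = 0
    rcases lt_trichotomy (e x) (e (S • x)) with h1 | h1 | h1
    · exact hR x h1
    · exact ha.2 x (e.injective h1).symm
    · have h2 := hR (S • x) (by rwa [S_smul_S_smul])
      simpa [h2] using ha.1 x
  have hdim : Module.finrank K (relS N K) ≤ R.card := by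
    simpa using LinearMap.finrank_le_finrank_of_injective hΦ
  let F : Finset (Cosets N) := Finset.univ.filter fun x => S • x = x
  have hF : F.card = Nat.card {x : Cosets N // S • x = x} := by
    simp [F, Nat.card_eq_fintype_card, Fintype.card_subtype]
  have hd1 : Disjoint R (R.image (S • ·)) := by
    rw [Finset.disjoint_left]
    intro x hx hx'
    obtain ⟨y, hy, rfl⟩ := Finset.mem_image.mp hx'
    simp only [R, Finset.mem_filter, Finset.mem_univ, true_and, S_smul_S_smul] at hx hy
    exact lt_asymm hx hy
  have hd2 : Disjoint (R ∪ R.image (S • ·)) F := by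
    rw [Finset.disjoint_left]
    intro x hx hx'
    simp only [F, Finset.mem_filter, Finset.mem_univ, true_and] at hx'
    rcases Finset.mem_union.mp hx with hx | hx
    · simp [R, hx'] at hx
    · obtain ⟨y, hy, rfl⟩ := Finset.mem_image.mp hx
      simp only [S_smul_S_smul] at hx'
      simp [R, ← hx'] at hy
  have h := Finset.card_le_univ (R ∪ R.image (S • ·) ∪ F)
  rw [Finset.card_union_of_disjoint hd2, Finset.card_union_of_disjoint hd1,
    Finset.card_image_of_injective _ (MulAction.injective _), hF] at h
  rw [Nat.card_eq_fintype_card (α := Cosets N)]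
  omega

theorem finrank_relU_le [Fintype (Cosets N)] :
    3 * Module.finrank K (relU N K) + 2 * Nat.card {x : Cosets N // (S * T) • x = x}
      ≤ 2 * Nat.card (Cosets N) := by
  classical
  obtain ⟨u, hu⟩ : ∃ u : SL(2, ℤ), u = S * T := ⟨_, rfl⟩
  rw [← hu]
  have h3 : ∀ x : Cosets N, u • u • u • x = x := fun x => by rw [hu]; exact ST_smul_three x
  let e := Fintype.equivFin (Cosets N)
  let R : Finset (Cosets N) := Finset.univ.filter fun x => e x < e (u • x) ∧ e x < e (u • u • x)
  have hmin : ∀ x : Cosets N, u • x ≠ x → x ∈ R ∨ u • x ∈ R ∨ u • u • x ∈ R := by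
    intro x hx
    have hx2 : u • u • x ≠ x := fun h => hx (by
      have := congrArg (u • ·) h
      simpa [h3] using this.symm)
    have hx12 : u • x ≠ u • u • x := fun h => hx (MulAction.injective u h).symm
    have h01 : e x ≠ e (u • x) := fun h => hx (e.injective h).symm
    have h02 : e x ≠ e (u • u • x) := fun h => hx2 (e.injective h).symm
    have h12 : e (u • x) ≠ e (u • u • x) := fun h => hx12 (e.injective h)
    simp only [R, Finset.mem_filter, Finset.mem_univ, true_and, h3]
    omega
  let Φ : relU N K →ₗ[K] (R → K) × (R → K) :=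
    { toFun := fun b => (fun x => (b : Cosets N → K) x, fun x => (b : Cosets N → K) (u • x.1))
      map_add' := fun _ _ => rfl
      map_smul' := fun _ _ => rfl }
  have hΦ : Function.Injective Φ := by
    rw [injective_iff_map_eq_zero]
    rintro ⟨b, hb⟩ h
    have hR : ∀ x ∈ R, b x = 0 ∧ b (u • x) = 0 ∧ b (u • u • x) = 0 := fun x hx => by
      have h1 : b x = 0 := congrFun (congrArg Prod.fst h) ⟨x, hx⟩
      have h2 : b (u • x) = 0 := congrFun (congrArg Prod.snd h) ⟨x, hx⟩
      have h4 := hb.1 x
      rw [← hu, h1, h2, zero_add, zero_add] at h4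
      exact ⟨h1, h2, h4⟩
    ext x
    show b x = 0
    by_cases hx : u • x = x
    · exact hb.2 x (hu ▸ hx)
    · rcases hmin x hx with h1 | h1 | h1
      · exact (hR x h1).1
      · simpa [h3] using (hR _ h1).2.2
      · simpa [h3] using (hR _ h1).2.1
  have hdim : Module.finrank K (relU N K) ≤ 2 * R.card := by
    simpa [two_mul] using LinearMap.finrank_le_finrank_of_injective hΦ
  let F : Finset (Cosets N) := Finset.univ.filter fun x => u • x = x
  have hF : F.card = Nat.card {x : Cosets N // u • x = x} := by
    simp [F, Nat.card_eq_fintype_card, Fintype.card_subtype]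
  have hmemR : ∀ x ∈ R, e x < e (u • x) ∧ e x < e (u • u • x) := fun x hx =>
    (Finset.mem_filter.mp hx).2
  have hd1 : Disjoint R (R.image (u • ·)) := by
    rw [Finset.disjoint_left]
    intro x hx hx'
    obtain ⟨y, hy, rfl⟩ := Finset.mem_image.mp hx'
    have hx := hmemR _ hx
    have hy := hmemR _ hy
    simp only [h3] at hx
    omega
  have hd2 : Disjoint (R ∪ R.image (u • ·)) (R.image (fun x => u • u • x)) := by
    rw [Finset.disjoint_left]
    intro x hx hx'
    obtain ⟨y, hy, rfl⟩ := Finset.mem_image.mp hx'
    have hy := hmemR _ hy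
    rcases Finset.mem_union.mp hx with hx | hx
    · have hx := hmemR _ hx
      simp only [h3] at hx
      omega
    · obtain ⟨z, hz, hzy⟩ := Finset.mem_image.mp hx
      obtain rfl : z = u • y := MulAction.injective u hzy
      have hz := hmemR _ hz
      simp only [h3] at hz
      omega
  have hd3 : Disjoint (R ∪ R.image (u • ·) ∪ R.image (fun x => u • u • x)) F := by
    rw [Finset.disjoint_left]
    intro x hx hx'
    have hfix : u • x = x := (Finset.mem_filter.mp hx').2
    simp only [Finset.mem_union, Finset.mem_image] at hx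
    rcases hx with (hx | ⟨y, hy, rfl⟩) | ⟨y, hy, rfl⟩
    · have hx := hmemR _ hx
      simp [hfix] at hx
    · have hy := hmemR _ hy
      obtain hfix : u • y = y := MulAction.injective u hfix
      simp [hfix] at hy
    · have hy := hmemR _ hy
      obtain hfix : u • y = y := MulAction.injective u (MulAction.injective u hfix)
      simp [hfix] at hy
  have h := Finset.card_le_univ (R ∪ R.image (u • ·) ∪ R.image (fun x => u • u • x) ∪ F)
  rw [Finset.card_union_of_disjoint hd3, Finset.card_union_of_disjoint hd2,
    Finset.card_union_of_disjoint hd1,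
    Finset.card_image_of_injective _ (MulAction.injective u),
    Finset.card_image_of_injective R (f := fun x => u • u • x)
      (fun a b hab => MulAction.injective u (MulAction.injective u hab)),
    hF] at h
  rw [Nat.card_eq_fintype_card (α := Cosets N)]
  omega

theorem card_cusps_le_finrank_range_cuspSum [Fintype (Cosets N)] :
    Nat.card (CuspOrbits N) ≤ Module.finrank K (LinearMap.range (cuspSum N K)) + 1 := by
  classical
  let π : Cosets N → CuspOrbits N := fun x => Quotient.mk'' x
  have hπ : Function.Surjective π := Quotient.mk''_surjective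
  have : Fintype (CuspOrbits N) := Fintype.ofSurjective π hπ
  let W : Submodule K (CuspOrbits N → K) := LinearMap.range (cuspSum N K)
  have hconst : ∀ L ∈ W.dualAnnihilator, ∀ x,
      L (Pi.single (π x) 1) = L (Pi.single (π ((1 : SL(2, ℤ)) : Cosets N)) 1) := by
    intro L hL
    obtain ⟨Y, hYdef⟩ : ∃ Y : Cosets N → K, Y = fun x => L (Pi.single (π x) 1) := ⟨_, rfl⟩
    have hY : ∀ v : CuspOrbits N → K, L v = ∑ o, v o * L (Pi.single o 1) := fun v => by
      conv_lhs => rw [pi_eq_sum_univ' v]
      simp [map_sum, map_smul]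
    have hTY : ∀ x, Y (T • x) = Y x := fun x => by
      have hπT : π (T • x) = π x :=
        Quotient.sound' ⟨⟨T, Subgroup.mem_zpowers T⟩, rfl⟩
      simp only [hYdef, hπT]
    have hUY : ∀ x, Y ((S * T) • x) = Y x := fun x => by
      obtain ⟨u, hu⟩ : ∃ u : SL(2, ℤ), u = S * T := ⟨_, rfl⟩
      rw [← hu]
      have h3 : ∀ z : Cosets N, u • u • u • z = z := fun z => by rw [hu]; exact ST_smul_three z
      let b : Cosets N → K := fun z => (if z = x then 1 else 0) - if z = u • x then 1 else 0
      have hshift : ∀ z, (u • z = u • x) ↔ z = x := fun z => (MulAction.injective u).eq_iff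
      have hb : b ∈ relU N K := by
        refine ⟨fun z => ?_, fun z hz => ?_⟩
        · rw [← hu]
          have h2 : u • u • z = u • x ↔ u • z = x := hshift (u • z)
          have h3' : z = u • x ↔ u • u • z = x := by
            constructor
            · rintro rfl; exact h3 x
            · intro h; rw [← h, h3]
          simp only [b, hshift, h3']
          ring
        · rw [← hu] at hz
          have : z = u • x ↔ z = x := by
            conv_lhs => rw [← hz]
            exact hshift z
          simp only [b, this, sub_self]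
      have hmem : cuspSum N K (0, ⟨b, hb⟩) ∈ W := LinearMap.mem_range_self _ _
      have h0 : L (cuspSum N K (0, ⟨b, hb⟩)) = 0 :=
        (Submodule.mem_dualAnnihilator L).mp hL _ hmem
      have h1 : ∑ z, b z * Y z = 0 := by
        rw [← h0, hY, ← Finset.sum_fiberwise Finset.univ π]
        refine Finset.sum_congr rfl fun o _ => ?_
        simp only [cuspSum, LinearMap.coe_mk, AddHom.coe_mk, ZeroMemClass.coe_zero, Pi.zero_apply,
          sub_zero, Finset.sum_mul]
        exact Finset.sum_congr rfl fun z hz => by rw [hYdef, ← (Finset.mem_filter.mp hz).2]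
      simp only [b, sub_mul, ite_mul, one_mul, zero_mul, Finset.sum_sub_distrib,
        Finset.sum_ite_eq', Finset.mem_univ, if_true] at h1
      exact (sub_eq_zero.mp h1).symm
    have hSY : ∀ x, Y (S • x) = Y x := fun x => by
      have h := hUY (T⁻¹ • x)
      have h' := hTY (T⁻¹ • x)
      rw [mul_smul, smul_inv_smul] at h
      rw [smul_inv_smul] at h'
      rw [h, h']
    have hall : ∀ g : SL(2, ℤ), ∀ x, Y (g • x) = Y x := by
      intro g
      have hg : g ∈ Subgroup.closure ({S, T} : Set SL(2, ℤ)) := by
        rw [SpecialLinearGroup.SL2Z_generators]; trivial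
      induction hg using Subgroup.closure_induction with
      | mem y hy =>
        rcases hy with rfl | rfl
        · exact hSY
        · exact hTY
      | one => intro x; rw [one_smul]
      | mul a c _ _ ha hc => intro x; rw [mul_smul, ha, hc]
      | inv a _ ha => intro x; rw [← ha (a⁻¹ • x), smul_inv_smul]
    intro x
    obtain ⟨g, rfl⟩ := MulAction.exists_smul_eq SL(2, ℤ) ((1 : SL(2, ℤ)) : Cosets N) x
    have := hall g ((1 : SL(2, ℤ)) : Cosets N)
    rwa [hYdef] at this
  let ev : W.dualAnnihilator →ₗ[K] K :=
    (LinearMap.applyₗ (Pi.single (π ((1 : SL(2, ℤ)) : Cosets N)) (1 : K))).comp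
      W.dualAnnihilator.subtype
  have hev : Function.Injective ev := by
    rw [injective_iff_map_eq_zero]
    rintro ⟨L, hL⟩ h
    apply Subtype.ext
    refine LinearMap.pi_ext' fun o => LinearMap.ext_ring ?_
    obtain ⟨x, rfl⟩ := hπ o
    show L (Pi.single (π x) 1) = 0
    rw [hconst L hL x]
    exact h
  have h1 := Subspace.finrank_add_finrank_dualAnnihilator_eq W
  have h2 := LinearMap.finrank_le_finrank_of_injective hev
  rw [Module.finrank_self] at h2
  rw [Module.finrank_fintype_fun_eq_card, ← Nat.card_eq_fintype_card] at h1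
  have hW : Module.finrank K W = Module.finrank K (LinearMap.range (cuspSum N K)) := rfl
  omega

/-- Over every field, `Hom(ParQuot N, K)` has dimension at most twice the genus. -/
theorem finrank_parQuot_hom_le :
    FiniteDimensional K (ParQuot N →+ K) ∧
      6 * Module.finrank K (ParQuot N →+ K) + 3 * Nat.card {x : Cosets N // S • x = x}
        + 4 * Nat.card {x : Cosets N // (S * T) • x = x} + 6 * Nat.card (CuspOrbits N)
      ≤ Nat.card (Cosets N) + 12 := by
  classical
  have := Fintype.ofFinite (Cosets N)
  have : Fintype (CuspOrbits N) :=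
    Fintype.ofSurjective (fun x : Cosets N => Quotient.mk'' x) Quotient.mk''_surjective
  have hmS : ∀ p, twist N K S p ∈ relS N K := fun p =>
    ⟨fun x => by
      have h := twist_mul S S p x
      rw [S_mul_S, twist_neg_one] at h
      rw [add_comm]; exact h.symm,
    fun x hx => twist_eq_zero_of_fixed hx (by simp [coe_S, Matrix.trace_fin_two]) p⟩
  have hmU : ∀ p, twist N K (S * T) p ∈ relU N K := fun p =>
    ⟨fun x => by
      have h := twist_mul (S * T) (S * T * (S * T)) p x
      rw [S_mul_T_pow_three, twist_neg_one, twist_mul (S * T) (S * T) p x,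
        mul_smul (S * T) (S * T)] at h
      linear_combination -h,
    fun x hx => twist_eq_zero_of_fixed hx
      (by simp [coe_S, coe_T, Matrix.SpecialLinearGroup.coe_mul, Matrix.trace_fin_two]) p⟩
  let E : ((ParQuot N →+ K) × (Cosets N → K)) →ₗ[K] (↥(relS N K) × ↥(relU N K)) :=
    ((twist N K S).codRestrict _ hmS).prod ((twist N K (S * T)).codRestrict _ hmU)
  have hker : ∀ p, E p ∈ LinearMap.ker (cuspSum N K) := fun p => by
    rw [LinearMap.mem_ker]
    funext o
    obtain ⟨x₀, rfl⟩ := Quotient.mk''_surjective o
    have hT : ∀ x, twist N K (S * T) p x - twist N K S p (T • x) = twist N K T p x := fun x => by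
      rw [twist_mul]; ring
    simp only [cuspSum, LinearMap.coe_mk, AddHom.coe_mk, Pi.zero_apply]
    show ∑ x ∈ _, (twist N K (S * T) p x - twist N K S p (T • x)) = 0
    simp only [hT]
    have hper : 0 < MulAction.period T x₀ :=
      MulAction.period_pos_of_fixed (Nat.pos_of_ne_zero (NeZero.ne N)) (T_pow_smul_cosets x₀)
    have himg : Finset.univ.filter (fun x : Cosets N =>
        (Quotient.mk'' x : CuspOrbits N) = Quotient.mk'' x₀)
        = (Finset.range (MulAction.period T x₀)).image (fun i => T ^ i • x₀) := by
      ext x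
      simp only [Finset.mem_filter, Finset.mem_univ, true_and, Finset.mem_image, Finset.mem_range]
      constructor
      · intro h
        obtain ⟨⟨t, ht⟩, hx⟩ := Quotient.exact' h
        obtain ⟨n, rfl⟩ := Subgroup.mem_zpowers_iff.mp ht
        refine ⟨(n % (MulAction.period T x₀ : ℤ)).toNat, ?_, ?_⟩
        · have := Int.emod_lt_of_pos n (show (0 : ℤ) < MulAction.period T x₀ by omega)
          omega
        · rw [← zpow_natCast, Int.toNat_of_nonneg (Int.emod_nonneg _ (by omega)),
            MulAction.zpow_mod_period_smul]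
          exact hx
      · rintro ⟨i, -, rfl⟩
        exact Quotient.sound' ⟨⟨T ^ i, pow_mem (Subgroup.mem_zpowers T) i⟩, rfl⟩
    have hinj : ∀ i j : ℕ, i < j → j < MulAction.period T x₀ → T ^ i • x₀ ≠ T ^ j • x₀ := by
      intro i j hij hj h
      refine MulAction.pow_smul_ne_of_lt_period (m := T) (a := x₀) (n := j - i) (by omega) (by omega) ?_
      apply MulAction.injective (T ^ i)
      show T ^ i • T ^ (j - i) • x₀ = T ^ i • x₀
      rw [← mul_smul, ← pow_add, show i + (j - i) = j by omega, h]
    rw [himg, Finset.sum_image (fun i hi j hj h => by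
        simp only [Finset.coe_range, Set.mem_Iio] at hi hj
        rcases lt_trichotomy i j with hlt | heq | hgt
        · exact absurd h (hinj i j hlt hj)
        · exact heq
        · exact absurd h.symm (hinj j i hgt hi))]
    rw [← twist_T_pow]
    refine twist_eq_zero_of_fixed (MulAction.pow_period_smul T x₀) ?_ p
    rw [← zpow_natCast, coe_T_zpow]
    simp [Matrix.trace_fin_two]
  let E' : ((ParQuot N →+ K) × (Cosets N → K)) →ₗ[K] (↥(LinearMap.ker (cuspSum N K)) × K) :=
    (E.codRestrict _ hker).prod
      ((LinearMap.proj ((1 : SL(2, ℤ)) : Cosets N)).comp (LinearMap.snd K _ _))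
  have hinjE : Function.Injective E' := by
    rw [injective_iff_map_eq_zero]
    intro p hp
    have h1 : E p = 0 := congrArg Subtype.val (congrArg Prod.fst hp)
    exact twist_injective p
      (fun x => congrFun (congrArg Subtype.val (congrArg Prod.fst h1)) x)
      (fun x => congrFun (congrArg Subtype.val (congrArg Prod.snd h1)) x)
      (congrArg Prod.snd hp)
  have hfdk : FiniteDimensional K ↥(LinearMap.ker (cuspSum N K)) :=
    FiniteDimensional.finiteDimensional_submodule _
  have : Module.Free K ↥(LinearMap.ker (cuspSum N K)) :=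
    Module.Free.of_divisionRing K ↥(LinearMap.ker (cuspSum N K))
  have : IsNoetherian K (↥(LinearMap.ker (cuspSum N K)) × K) :=
    isNoetherian_of_isNoetherianRing_of_finite K (↥(LinearMap.ker (cuspSum N K)) × K)
  have hfd : FiniteDimensional K ((ParQuot N →+ K) × (Cosets N → K)) :=
    Module.Finite.of_injective E' hinjE
  have hfdV : FiniteDimensional K (ParQuot N →+ K) :=
    Module.Finite.of_injective (LinearMap.inl K _ (Cosets N → K)) LinearMap.inl_injective
  refine ⟨hfdV, ?_⟩
  have h1 := LinearMap.finrank_le_finrank_of_injective hinjE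
  have h2 := LinearMap.finrank_range_add_finrank_ker (cuspSum N K)
  have h3 := card_cusps_le_finrank_range_cuspSum N K
  have h4 := finrank_relS_le N K
  have h5 := finrank_relU_le N K
  rw [Module.finrank_prod, Module.finrank_prod, Module.finrank_fintype_fun_eq_card,
    Module.finrank_self, ← Nat.card_eq_fintype_card] at h1
  rw [Module.finrank_prod] at h2
  omega

end FLTAgent.Periods
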