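import Mathlib.NumberTheory.Modular
import Mathlib.RingTheory.Coprime.Basic
import Mathlib.RingTheory.Int.Basic

/-!
# Elements of trace `±2` are conjugate to powers of `T`, up to sign
-/

set_option autoImplicit false

namespace FLTAgent.Periods

open scoped MatrixGroups
open Matrix

/-- An element of `SL(2, ℤ)` with lower left entry `0` is plus or minus a power of `T`. -/
theorem eq_T_zpow_or_neg {h : SL(2, ℤ)} (hc : (h : Matrix (Fin 2) (Fin 2) ℤ) 1 0 = 0) :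
    ∃ m : ℤ, h = ModularGroup.T ^ m ∨ h = -(ModularGroup.T ^ m) := by
  have hdet := Matrix.det_fin_two (h : Matrix (Fin 2) (Fin 2) ℤ)
  rw [h.det_coe, hc, mul_zero, sub_zero] at hdet
  rcases Int.eq_one_or_neg_one_of_mul_eq_one' hdet.symm with ⟨ha, hd⟩ | ⟨ha, hd⟩
  · refine ⟨(h : Matrix (Fin 2) (Fin 2) ℤ) 0 1, Or.inl (Subtype.ext ?_)⟩
    rw [ModularGroup.coe_T_zpow]
    ext i j
    fin_cases i <;> fin_cases j <;> simp [ha, hd, hc]
  · refine ⟨-((h : Matrix (Fin 2) (Fin 2) ℤ) 0 1), Or.inr (Subtype.ext ?_)⟩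
    rw [Matrix.SpecialLinearGroup.coe_neg, ModularGroup.coe_T_zpow]
    ext i j
    fin_cases i <;> fin_cases j <;> simp [ha, hd, hc]

/-- An element of trace `±2` becomes `±T ^ m` after conjugation in `SL(2, ℤ)`. -/
theorem exists_mul_eq_mul_T_zpow {g : SL(2, ℤ)}
    (hg : (g : Matrix (Fin 2) (Fin 2) ℤ).trace ^ 2 = 4) :
    ∃ (δ : SL(2, ℤ)) (m : ℤ),
      g * δ = δ * ModularGroup.T ^ m ∨ g * δ = -(δ * ModularGroup.T ^ m) := by
  suffices h : ∃ δ : SL(2, ℤ), ((δ⁻¹ * g * δ : SL(2, ℤ)) : Matrix (Fin 2) (Fin 2) ℤ) 1 0 = 0 by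
    obtain ⟨δ, hδ⟩ := h
    obtain ⟨m, hm | hm⟩ := eq_T_zpow_or_neg hδ
    · exact ⟨δ, m, Or.inl (by rw [← hm]; group)⟩
    · refine ⟨δ, m, Or.inr ?_⟩
      rw [← mul_neg, ← hm]
      group
  rw [Matrix.trace_fin_two] at hg
  have hdet := Matrix.det_fin_two (g : Matrix (Fin 2) (Fin 2) ℤ)
  rw [g.det_coe] at hdet
  obtain ⟨a, ha⟩ : ∃ a, a = (g : Matrix (Fin 2) (Fin 2) ℤ) 0 0 := ⟨_, rfl⟩
  obtain ⟨b, hb⟩ : ∃ b, b = (g : Matrix (Fin 2) (Fin 2) ℤ) 0 1 := ⟨_, rfl⟩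
  obtain ⟨c, hc⟩ : ∃ c, c = (g : Matrix (Fin 2) (Fin 2) ℤ) 1 0 := ⟨_, rfl⟩
  obtain ⟨d, hd⟩ : ∃ d, d = (g : Matrix (Fin 2) (Fin 2) ℤ) 1 1 := ⟨_, rfl⟩
  rw [← ha, ← hd] at hg
  rw [← ha, ← hb, ← hc, ← hd] at hdet
  rcases eq_or_ne c 0 with hc0 | hc0
  · exact ⟨1, by simpa [← hc] using hc0⟩
  obtain ⟨s, hs⟩ : ∃ s : ℤ, a + d = 2 * s := by
    rcases eq_or_eq_neg_of_sq_eq_sq (a + d) 2 (by linarith) with h | h
    · exact ⟨1, by linarith⟩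
    · exact ⟨-1, by linarith⟩
  have hgcd : Int.gcd (a - s) c ≠ 0 := by simp [Int.gcd_eq_zero_iff, hc0]
  obtain ⟨p, q, hpq, hp, hq⟩ := Int.exists_gcd_one (Nat.pos_of_ne_zero hgcd)
  obtain ⟨x, y, hxy⟩ := Int.isCoprime_iff_gcd_eq_one.mpr hpq
  let δ : SL(2, ℤ) := ⟨!![p, -y; q, x], by rw [Matrix.det_fin_two_of]; linarith⟩
  refine ⟨δ, ?_⟩
  have hs1 : s ^ 2 = 1 := by
    rw [hs, mul_pow] at hg
    linarith
  have e1 : (a - s) * (c * (a - s) + d * c) - c * (a * (a - s) + b * c) = 0 := by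
    linear_combination (-c) * hdet + (-c * s) * hs + (-c) * hs1
  have hG : (Int.gcd (a - s) c : ℤ) ≠ 0 := by exact_mod_cast hgcd
  generalize (Int.gcd (a - s) c : ℤ) = G at hp hq hG
  have key : -q * (a * p + b * q) + p * (c * p + d * q) = 0 := by
    refine (mul_eq_zero.mp ?_).resolve_left (pow_ne_zero 2 hG)
    rw [hp] at e1
    linear_combination e1 + (a * p * G + b * c + b * q * G - p * G * d) * hq
  show ((δ⁻¹ * g * δ : SL(2, ℤ)) : Matrix (Fin 2) (Fin 2) ℤ) 1 0 = 0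
  rw [Matrix.SpecialLinearGroup.coe_mul, Matrix.SpecialLinearGroup.coe_mul,
    Matrix.SpecialLinearGroup.coe_inv, Matrix.adjugate_fin_two]
  simp [δ, Matrix.vecMul, dotProduct, Matrix.mul_apply, Fin.sum_univ_two, ← ha, ← hb, ← hc, ← hd]
  linarith [key]

end FLTAgent.Periods
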