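import Mathlib.Analysis.Complex.HasPrimitives
import Mathlib.Analysis.Calculus.DSlope
import Mathlib.Analysis.Calculus.MeanValue
import Mathlib.NumberTheory.ModularForms.QExpansion
import Mathlib.NumberTheory.ModularForms.CongruenceSubgroups
import Fermat.Prelude.Def_ModularCurve_PeriodHomPair
import Fermat.Agent.Periods.Conj

/-!
# Equivariant primitives of weight two cusp forms on `Γ₀(N)` and their periods

A primitive of `f` has at every cusp an expansion `F (δ • w) = A (qParam N w)` with `A` holomorphic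
on the unit disc, which gives the limits at the cusps and the vanishing of the parabolic periods.
-/

set_option autoImplicit false

noncomputable section

namespace FLTAgent.Periods

open scoped MatrixGroups Topology Manifold Real ModularForm
open UpperHalfPlane hiding I
open Complex Filter CongruenceSubgroup ModularCurve Metric
open Function (Periodic)

local notation "𝕢" => Function.Periodic.qParam

/-- Two functions on `ℍ` with the same derivative differ by a constant. -/
theorem exists_eq_add_const {φ : ℍ → ℂ} {F G : ℂ → ℂ}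
    (hF : ∀ τ : ℍ, HasDerivAt F (φ τ) τ) (hG : ∀ τ : ℍ, HasDerivAt G (φ τ) τ) :
    ∃ c, ∀ τ : ℍ, F τ = G τ + c := by
  refine ⟨F UpperHalfPlane.I - G UpperHalfPlane.I, fun τ => ?_⟩
  have key : ∀ z : ℂ, 0 < z.im → HasDerivAt (fun w => F w - G w) 0 z := fun z hz =>
    ((hF ⟨z, hz⟩).sub (hG ⟨z, hz⟩)).congr_deriv (sub_self _)
  have h := (isOpen_upperHalfPlaneSet).is_const_of_deriv_eq_zero (𝕜 := ℂ)
    (Complex.isConnected_of_upperHalfPlane subset_rfl (by grind)).isPreconnected
    (fun z hz => (key z hz).differentiableAt.differentiableWithinAt)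
    (fun z hz => (key z hz).deriv) τ.im_pos UpperHalfPlane.I.im_pos
  linear_combination h

/-- A periodic function vanishing at infinity has a primitive which is holomorphic in `q`. -/
theorem exists_primitive_of_periodic {g : ℍ → ℂ} {h : ℝ} (hh : 0 < h)
    (hper : Periodic (g ∘ ofComplex) h) (hhol : MDiff g) (hzero : IsZeroAtImInfty g) :
    ∃ A : ℂ → ℂ, DifferentiableOn ℂ A (ball 0 1) ∧ A 0 = 0 ∧
      ∀ τ : ℍ, HasDerivAt (fun z : ℂ => A (𝕢 h z)) (g τ) τ := by
  have hbdd : IsBoundedAtImInfty g := hzero.isBoundedAtImInfty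
  have hc : DifferentiableOn ℂ (cuspFunction h g) (ball 0 1) :=
    differentiableOn_cuspFunction_ball hh hper hhol hbdd
  have hc0 : cuspFunction h g 0 = 0 := by
    rw [cuspFunction_apply_zero hh (analyticAt_cuspFunction_zero hh hper hhol hbdd) hper,
      hzero.valueAtInfty_eq_zero]
  have hslope : DifferentiableOn ℂ (dslope (cuspFunction h g) 0) (ball 0 1) :=
    (Complex.differentiableOn_dslope (ball_mem_nhds _ one_pos)).mpr hc
  obtain ⟨G, hG0, hG⟩ := hslope.isExactOn_ball.with_val_at 0 0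
  refine ⟨fun q => (h : ℂ) / (2 * π * I) * G q, ?_, by simp [hG0], fun τ => ?_⟩
  · exact fun q hq => ((hG q hq).differentiableAt.const_mul _).differentiableWithinAt
  · have hq : 𝕢 h τ ∈ ball (0 : ℂ) 1 :=
      mem_ball_zero_iff.mpr (Function.Periodic.norm_qParam_lt_one hh τ.im_pos)
    have hqd : HasDerivAt (𝕢 h) (𝕢 h τ * (2 * π * I / h)) (τ : ℂ) := by
      simpa only [id_eq, mul_one] using!
        (((hasDerivAt_id (τ : ℂ)).const_mul (2 * π * I : ℂ)).div_const (h : ℂ)).cexp
    have hne : (h : ℂ) ≠ 0 := ofReal_ne_zero.mpr hh.ne'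
    have hq0 : 𝕢 h τ ≠ 0 := Function.Periodic.qParam_ne_zero _
    refine (((hG _ hq).comp (τ : ℂ) hqd).const_mul ((h : ℂ) / (2 * π * I))).congr_deriv ?_
    rw [dslope_of_ne _ hq0, slope_def_field, hc0, eq_cuspFunction τ hh.ne' hper]
    field_simp [two_pi_I_ne_zero]
    simp

variable {N : ℕ} [NeZero N]

/-- `F` is a primitive of `f` on the upper half plane. -/
def IsPrimitive (f : CuspForm (Gamma0 N) 2) (F : ℍ → ℂ) : Prop :=
  ∀ τ : ℍ, HasDerivAt (F ∘ ofComplex) (f τ) ↑τ

omit [NeZero N] in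
theorem T_pow_conj_mem_Gamma0 (δ : SL(2, ℤ)) :
    δ * ModularGroup.T ^ (N : ℤ) * δ⁻¹ ∈ Gamma0 N := by
  have hT : ModularGroup.T ^ (N : ℤ) ∈ Gamma N :=
    ModularGroup_T_pow_mem_Gamma N N dvd_rfl
  have h := (Gamma_normal N).conj_mem _ hT δ
  rw [Gamma_mem] at h
  exact Gamma0_mem.mpr h.2.2.1

omit [NeZero N] in
theorem slash_eq_of_mem_Gamma0 (f : CuspForm (Gamma0 N) 2) {γ : SL(2, ℤ)} (hγ : γ ∈ Gamma0 N) :
    ⇑f ∣[(2 : ℤ)] γ = ⇑f := by
  rw [ModularForm.SL_slash]
  exact SlashInvariantFormClass.slash_action_eq f _ (Subgroup.mem_map_of_mem _ hγ)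

theorem periodic_slash (f : CuspForm (Gamma0 N) 2) (δ : SL(2, ℤ)) :
    Periodic ((⇑f ∣[(2 : ℤ)] δ) ∘ ofComplex) (N : ℝ) := by
  have key : (⇑f ∣[(2 : ℤ)] δ) ∣[(2 : ℤ)] (ModularGroup.T ^ (N : ℤ)) = ⇑f ∣[(2 : ℤ)] δ := by
    conv_rhs => rw [← slash_eq_of_mem_Gamma0 f (T_pow_conj_mem_Gamma0 δ)]
    rw [← SlashAction.slash_mul, ← SlashAction.slash_mul]
    group
  intro w
  by_cases hw : 0 < w.im
  · have hw' : 0 < (w + ((N : ℝ) : ℂ)).im := by simpa using hw
    simp only [Function.comp_apply, ofComplex_apply_of_im_pos hw,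
      ofComplex_apply_of_im_pos hw']
    conv_rhs => rw [← congrFun key ⟨w, hw⟩]
    rw [ModularForm.SL_slash_apply (γ := ModularGroup.T ^ (N : ℤ))]
    have hden : denom (ModularGroup.T ^ (N : ℤ) : SL(2, ℤ)) (⟨w, hw⟩ : ℍ) = 1 := by
      rw [ModularGroup.denom_apply]
      simp only [ModularGroup.coe_T_zpow]
      simp
    rw [hden, one_zpow, mul_one]
    refine congrArg _ (UpperHalfPlane.ext ?_)
    rw [ModularGroup.coe_T_zpow_smul_eq]
    simp
  · have hw' : (w + ((N : ℝ) : ℂ)).im ≤ 0 := by simpa using hw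
    simp only [Function.comp_apply, ofComplex_apply_eq_of_im_nonpos hw' (not_lt.mp hw)]

omit [NeZero N] in
theorem mdiff_slash (f : CuspForm (Gamma0 N) 2) (δ : SL(2, ℤ)) :
    MDiff (⇑f ∣[(2 : ℤ)] δ) := by
  rw [ModularForm.SL_slash]
  exact (CuspFormClass.holo f).slash 2 _

omit [NeZero N] in
/-- If `F` is a primitive of `f` then `F ∘ δ` is a primitive of `f ∣ δ`. -/
theorem IsPrimitive.hasDerivAt_comp_smul {f : CuspForm (Gamma0 N) 2} {F : ℍ → ℂ}
    (hF : IsPrimitive f F) (δ : SL(2, ℤ)) (τ : ℍ) :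
    HasDerivAt (fun z : ℂ => F (δ • ofComplex z)) ((⇑f ∣[(2 : ℤ)] δ) τ) τ := by
  have hd1 : (δ : GL (Fin 2) ℝ).val.det = 1 := Matrix.SpecialLinearGroup.det_coe _
  have hdet : 0 < (δ : GL (Fin 2) ℝ).val.det := hd1.symm ▸ one_pos
  have h1 := (hasStrictDerivAt_smul hdet τ).hasDerivAt
  have h3 : HasDerivAt (F ∘ ofComplex) (f (δ • τ))
      ((fun z : ℂ => ((δ : GL (Fin 2) ℝ) • ofComplex z : ℍ).1) (τ : ℂ)) := by
    simpa only [ofComplex_apply] using! hF (δ • τ)
  have h4 := h3.comp (τ : ℂ) h1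
  refine (h4.congr_deriv ?_).congr_of_eventuallyEq (.of_forall fun z => ?_)
  · rw [ModularForm.SL_slash_apply, hd1]
    simp [div_eq_mul_inv, zpow_neg]
  · simp only [Function.comp_apply]
    exact congrArg F (ofComplex_apply _).symm

/-- The expansion of a primitive at every cusp. -/
theorem IsPrimitive.exists_cuspExpansion {f : CuspForm (Gamma0 N) 2} {F : ℍ → ℂ}
    (hF : IsPrimitive f F) (δ : SL(2, ℤ)) :
    ∃ A : ℂ → ℂ, DifferentiableOn ℂ A (ball 0 1) ∧ ∀ w : ℍ, F (δ • w) = A (𝕢 N w) := by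
  have hN : (0 : ℝ) < N := by exact_mod_cast Nat.pos_of_ne_zero (NeZero.ne N)
  obtain ⟨A, hA, -, hAd⟩ := exists_primitive_of_periodic hN (periodic_slash f δ)
    (mdiff_slash f δ) (CuspFormClass.zero_at_infty_slash f δ)
  obtain ⟨c, hc⟩ := exists_eq_add_const (hF.hasDerivAt_comp_smul δ) hAd
  refine ⟨fun q => A q + c, hA.add_const c, fun w => ?_⟩
  have h := hc w
  simp only [ofComplex_apply] at h
  exact h

theorem tendsto_of_cuspExpansion {A : ℂ → ℂ} (hA : DifferentiableOn ℂ A (ball 0 1)) {h : ℝ}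
    (hh : 0 < h) : Tendsto (fun w : ℍ => A (𝕢 h w)) atImInfty (𝓝 (A 0)) :=
  ((hA.differentiableAt (ball_mem_nhds _ one_pos)).continuousAt.tendsto).comp
    (qParam_tendsto_atImInfty hh)

theorem IsPrimitive.exists_tendsto {f : CuspForm (Gamma0 N) 2} {F : ℍ → ℂ}
    (hF : IsPrimitive f F) (δ : SL(2, ℤ)) :
    ∃ L : ℂ, Tendsto (fun w : ℍ => F (δ • w)) atImInfty (𝓝 L) := by
  obtain ⟨A, hA, hAeq⟩ := hF.exists_cuspExpansion δ
  refine ⟨A 0, ?_⟩
  simp only [hAeq]
  exact tendsto_of_cuspExpansion hA (by exact_mod_cast Nat.pos_of_ne_zero (NeZero.ne N))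

theorem IsPrimitive.isEquivariantPrimitive {f : CuspForm (Gamma0 N) 2} {F : ℍ → ℂ}
    (hF : IsPrimitive f F) : Period.IsEquivariantPrimitive (Gamma0 N) F := by
  intro γ
  obtain ⟨c, hc⟩ := exists_eq_add_const
    (F := fun z : ℂ => F ((γ : SL(2, ℤ)) • ofComplex z)) (G := F ∘ ofComplex) (φ := f)
    (fun τ => by
      have h := hF.hasDerivAt_comp_smul (γ : SL(2, ℤ)) τ
      rwa [slash_eq_of_mem_Gamma0 f γ.2] at h) hF
  refine ⟨c, fun z => ?_⟩
  have h := hc z
  simp only [Function.comp_apply, ofComplex_apply] at h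
  rw [h, add_sub_cancel_left]

theorem exists_hasEquivariantPrimitive (f : CuspForm (Gamma0 N) 2) :
    ∃ F : ℍ → ℂ, HasEquivariantPrimitive N f F := by
  have hN : (0 : ℝ) < N := by exact_mod_cast Nat.pos_of_ne_zero (NeZero.ne N)
  obtain ⟨A, hA, hA0, hAd⟩ := exists_primitive_of_periodic hN (g := ⇑f)
    (by simpa using periodic_slash f 1) (CuspFormClass.holo f)
    (CuspFormClass.zero_at_infty f)
  have hF : IsPrimitive f (fun w : ℍ => A (𝕢 N w)) := fun τ =>
    (hAd τ).congr_of_eventuallyEq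
      (by filter_upwards [isOpen_upperHalfPlaneSet.mem_nhds τ.im_pos] with z hz
          simp [ofComplex_apply_of_im_pos hz])
  refine ⟨_, hF, ?_, hF.isEquivariantPrimitive, hF.exists_tendsto⟩
  simpa [hA0] using tendsto_of_cuspExpansion hA hN

omit [NeZero N] in
theorem eq_of_hasEquivariantPrimitive {f : CuspForm (Gamma0 N) 2} {F F' : ℍ → ℂ}
    (hF : HasEquivariantPrimitive N f F) (hF' : HasEquivariantPrimitive N f F') : F = F' := by
  obtain ⟨c, hc⟩ := exists_eq_add_const hF.1 hF'.1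
  simp only [Function.comp_apply, ofComplex_apply] at hc
  have hlim : Tendsto (fun w : ℍ => F' w + c) atImInfty (𝓝 (0 + c)) := hF'.2.1.add_const c
  rw [← funext hc, zero_add] at hlim
  have hc0 : c = 0 := tendsto_nhds_unique hlim hF.2.1
  ext w
  rw [hc w, hc0, add_zero]

omit [NeZero N] in
/-- The periods computed from any normalised primitive. -/
theorem periodMap_eq {f : CuspForm (Gamma0 N) 2} {F : ℍ → ℂ}
    (hF : HasEquivariantPrimitive N f F) : periodMap N f = hF.2.2.1.periodHom := by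
  obtain ⟨F₀, h₀, h⟩ := periodMap_def N f hF
  obtain rfl := eq_of_hasEquivariantPrimitive h₀ hF
  exact h

/-- The periods are computed by any primitive. -/
theorem periodMap_apply_of_isPrimitive {f : CuspForm (Gamma0 N) 2} {F : ℍ → ℂ}
    (hF : IsPrimitive f F) (γ : Gamma0 N) (z : ℍ) :
    periodMap N f (Additive.ofMul γ) = F ((γ : SL(2, ℤ)) • z) - F z := by
  obtain ⟨F₀, h₀⟩ := exists_hasEquivariantPrimitive f
  obtain ⟨c, hc⟩ := exists_eq_add_const hF h₀.1
  simp only [Function.comp_apply, ofComplex_apply] at hc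
  rw [periodMap_eq h₀, Period.IsEquivariantPrimitive.periodHom_apply,
    ← h₀.2.2.1.sub_eq_period γ z, hc, hc]
  ring

theorem exists_isPrimitive (f : CuspForm (Gamma0 N) 2) : ∃ F : ℍ → ℂ, IsPrimitive f F :=
  let ⟨F, hF⟩ := exists_hasEquivariantPrimitive f
  ⟨F, hF.1⟩

variable (N) in
/-- The period map as a linear map. -/
def periodLin : CuspForm (Gamma0 N) 2 →ₗ[ℂ] (Additive (Gamma0 N) →+ ℂ) where
  toFun := periodMap N
  map_add' f g := by
    obtain ⟨F, hF⟩ := exists_isPrimitive f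
    obtain ⟨G, hG⟩ := exists_isPrimitive g
    have hFG : IsPrimitive (f + g) (F + G) := fun τ => (hF τ).add (hG τ)
    refine AddMonoidHom.ext fun γ => ?_
    obtain ⟨γ, rfl⟩ := Additive.ofMul.surjective γ
    rw [AddMonoidHom.add_apply, periodMap_apply_of_isPrimitive hFG γ UpperHalfPlane.I,
      periodMap_apply_of_isPrimitive hF γ UpperHalfPlane.I,
      periodMap_apply_of_isPrimitive hG γ UpperHalfPlane.I]
    simp only [Pi.add_apply]
    ring
  map_smul' r f := by
    obtain ⟨F, hF⟩ := exists_isPrimitive f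
    have hrF : IsPrimitive (r • f) (r • F) := fun τ => (hF τ).const_smul r
    refine AddMonoidHom.ext fun γ => ?_
    obtain ⟨γ, rfl⟩ := Additive.ofMul.surjective γ
    rw [RingHom.id_apply, AddMonoidHom.smul_apply,
      periodMap_apply_of_isPrimitive hrF γ UpperHalfPlane.I,
      periodMap_apply_of_isPrimitive hF γ UpperHalfPlane.I]
    simp [mul_sub]

@[simp]
theorem periodLin_apply (f : CuspForm (Gamma0 N) 2) : periodLin N f = periodMap N f := rfl

theorem existsPeriodMapLinear : ExistsPeriodMapLinear N := ⟨periodLin N, fun _ => rfl⟩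

theorem periodHomPair_eq :
    periodHomPair N = LinearMap.coprod
        ((LinearMap.id + Period.charInvolution N ℂ ℂ) ∘ₗ periodLin N)
        ((LinearMap.id - Period.charInvolution N ℂ ℂ) ∘ₗ periodLin N) := by
  obtain ⟨pml, hpml, h⟩ := periodHomPair_def N existsPeriodMapLinear
  have : pml = periodLin N := LinearMap.ext hpml
  rw [h, this]

/-- Periods of cusp forms vanish on elements of trace `±2`. -/
theorem isParabolicHom_periodMap (f : CuspForm (Gamma0 N) 2) :
    Period.IsParabolicHom (Gamma0 N) (periodMap N f) := by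
  intro γ hγ
  obtain ⟨F, hF⟩ := exists_isPrimitive f
  obtain ⟨δ, m, hm⟩ := exists_mul_eq_mul_T_zpow hγ
  obtain ⟨L, hL⟩ := hF.exists_tendsto δ
  have hT : Tendsto (fun w : ℍ => ModularGroup.T ^ m • w) atImInfty atImInfty := by
    simp only [atImInfty, tendsto_comap_iff, Function.comp_def, ModularGroup.im_T_zpow_smul]
    exact tendsto_comap
  have key : ∀ w : ℍ, periodMap N f (Additive.ofMul γ)
      = F (δ • ModularGroup.T ^ m • w) - F (δ • w) := fun w => by
    rw [periodMap_apply_of_isPrimitive hF γ (δ • w), ← mul_smul, ← mul_smul]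
    rcases hm with h | h <;> rw [h]
    rw [ModularGroup.SL_neg_smul]
  have h0 : Tendsto (fun _ : ℍ => periodMap N f (Additive.ofMul γ)) atImInfty (𝓝 (L - L)) := by
    exact ((hL.comp hT).sub hL).congr fun w => (key w).symm
  rw [sub_self] at h0
  exact tendsto_nhds_unique tendsto_const_nhds h0

end FLTAgent.Periods
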