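import Mathlib.Analysis.Calculus.Deriv.Star
import Mathlib.Analysis.Complex.AbsMax
import Fermat.Agent.Periods.Primitive

/-!
# A cusp form with vanishing real periods is zero

A holomorphic function on `ℍ` with `Γ₀(N)`-invariant real part which is holomorphic in `q` at every
cusp is constant (maximum modulus applied to its exponential).
-/

set_option autoImplicit false

noncomputable section

namespace FLTAgent.Periods

open scoped MatrixGroups Topology Real ComplexConjugate
open UpperHalfPlane hiding I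
open Complex Filter CongruenceSubgroup ModularCurve Metric Set

local notation "𝕢" => Function.Periodic.qParam

/-- A holomorphic function on a ball whose real part has a maximum in the ball is constant. -/
theorem eq_of_isMaxOn_re {A : ℂ → ℂ} {r : ℝ} (hA : DifferentiableOn ℂ A (ball 0 r)) {q₀ : ℂ}
    (hq₀ : q₀ ∈ ball (0 : ℂ) r) (hmax : ∀ q ∈ ball (0 : ℂ) r, (A q).re ≤ (A q₀).re) :
    ∀ q ∈ ball (0 : ℂ) r, A q = A q₀ := by
  have hexp : DifferentiableOn ℂ (fun q => Complex.exp (A q)) (ball 0 r) := hA.cexp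
  have hmax' : IsMaxOn (norm ∘ fun q => Complex.exp (A q)) (ball 0 r) q₀ := fun q hq => by
    simpa [Complex.norm_exp] using hmax q hq
  have hpre := (convex_ball (0 : ℂ) r).isPreconnected
  have hconst := Complex.eqOn_of_isPreconnected_of_isMaxOn_norm hpre isOpen_ball hexp hq₀ hmax'
  have hderiv : ∀ q ∈ ball (0 : ℂ) r, deriv A q = 0 := fun q hq => by
    have hd := (hA.differentiableAt (isOpen_ball.mem_nhds hq)).hasDerivAt.cexp
    have hc : HasDerivAt (fun q => Complex.exp (A q)) 0 q :=
      (hasDerivAt_const q (Complex.exp (A q₀))).congr_of_eventuallyEq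
        (hconst.eventuallyEq_of_mem (isOpen_ball.mem_nhds hq))
    simpa using hd.unique hc
  exact fun q hq => isOpen_ball.is_const_of_deriv_eq_zero hpre hA hderiv hq hq₀

variable {N : ℕ} [NeZero N]

/-- `Φ` is holomorphic in `q` at every cusp. -/
def HasCuspExpansions (N : ℕ) (Φ : ℍ → ℂ) : Prop :=
  ∀ δ : SL(2, ℤ), ∃ A : ℂ → ℂ, DifferentiableOn ℂ A (ball 0 1) ∧
    ∀ w : ℍ, Φ (δ • w) = A (𝕢 N w)

/-- A function holomorphic at all cusps with `Γ₀(N)`-invariant real part is constant. -/
theorem exists_eq_const_of_re_invariant {Φ : ℍ → ℂ} (hΦ : HasCuspExpansions N Φ)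
    (hinv : ∀ (γ : Gamma0 N) (z : ℍ), (Φ ((γ : SL(2, ℤ)) • z)).re = (Φ z).re) :
    ∃ c, ∀ z, Φ z = c := by
  have hN : (0 : ℝ) < N := by exact_mod_cast Nat.pos_of_ne_zero (NeZero.ne N)
  choose A hA hAeq using hΦ
  let X := SL(2, ℤ) ⧸ Gamma0 N
  let δ : X → SL(2, ℤ) := fun x => x.out⁻¹
  let r : ℝ := Real.exp (-π / N)
  have hr1 : r < 1 := Real.exp_lt_one_iff.mpr (div_neg_of_neg_of_pos (by linarith [Real.pi_pos]) hN)
  have hball : closedBall (0 : ℂ) r ⊆ ball 0 1 := closedBall_subset_ball hr1
  have hex : ∀ x : X, ∃ q ∈ closedBall (0 : ℂ) r,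
      ∀ q' ∈ closedBall (0 : ℂ) r, (A (δ x) q').re ≤ (A (δ x) q).re := fun x =>
    (isCompact_closedBall _ _).exists_isMaxOn ⟨0, mem_closedBall_self (Real.exp_pos _).le⟩
      (continuous_re.comp_continuousOn ((hA (δ x)).continuousOn.mono hball))
  choose q hq hqmax using hex
  have : Finite X := Subgroup.finite_quotient_of_finiteIndex
  obtain ⟨x₀, hx₀⟩ := Finite.exists_max fun x => (A (δ x) (q x)).re
  have hle : ∀ z, (Φ z).re ≤ (A (δ x₀) (q x₀)).re := by
    intro z
    obtain ⟨g, hg⟩ := ModularGroup.exists_one_half_le_im_smul z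
    obtain ⟨h, hh⟩ := QuotientGroup.mk_out_eq_mul (Gamma0 N) g
    have hz : δ (g : X) • (g • z) = ((h⁻¹ : Gamma0 N) : SL(2, ℤ)) • z := by
      simp only [δ, hh, ← mul_smul, Subgroup.coe_inv]
      congr 1
      group
    have hmem : 𝕢 N (g • z : ℍ) ∈ closedBall (0 : ℂ) r := by
      rw [mem_closedBall_zero_iff, Function.Periodic.norm_qParam, Real.exp_le_exp,
        div_le_div_iff_of_pos_right hN, UpperHalfPlane.coe_im]
      nlinarith [Real.pi_pos]
    rw [← hinv h⁻¹ z, ← hz, hAeq]
    exact (hqmax _ _ hmem).trans (hx₀ _)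
  have hmax : ∀ p ∈ ball (0 : ℂ) 1, (A (δ x₀) p).re ≤ (A (δ x₀) (q x₀)).re := by
    intro p hp
    rcases eq_or_ne p 0 with rfl | hp0
    · exact hqmax x₀ 0 (mem_closedBall_self (Real.exp_pos _).le)
    · have him := Function.Periodic.im_invQParam_pos_of_norm_lt_one hN (mem_ball_zero_iff.mp hp) hp0
      have h := hle (δ x₀ • ⟨_, him⟩)
      rw [hAeq] at h
      simpa [Function.Periodic.qParam_right_inv hN.ne' hp0] using h
  refine ⟨A (δ x₀) (q x₀), fun z => ?_⟩
  have hz : Φ z = A (δ x₀) (𝕢 N ((δ x₀)⁻¹ • z : ℍ)) := by rw [← hAeq, smul_inv_smul]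
  rw [hz]
  exact eq_of_isMaxOn_re (hA _) (hball (hq x₀)) hmax _
    (mem_ball_zero_iff.mpr (Function.Periodic.norm_qParam_lt_one hN (UpperHalfPlane.im_pos _)))

/-- The reflection `z ↦ -conj z` of the upper half plane. -/
def negConj (z : ℍ) : ℍ := ⟨-conj (z : ℂ), by simpa using z.im_pos⟩

@[simp]
theorem coe_negConj (z : ℍ) : (negConj z : ℂ) = -conj (z : ℂ) := rfl

theorem negConj_smul (g : SL(2, ℤ)) (z : ℍ) :
    negConj (g • z) = Period.jConjSL g • negConj z := by
  apply UpperHalfPlane.ext
  rw [coe_negConj, UpperHalfPlane.coe_specialLinearGroup_apply,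
    UpperHalfPlane.coe_specialLinearGroup_apply]
  simp only [Period.jConjSL_coe, Period.jConjMat_apply_zero_zero, Period.jConjMat_apply_zero_one,
    Period.jConjMat_apply_one_zero, Period.jConjMat_apply_one_one, coe_negConj, map_div₀, map_add,
    map_mul, map_neg, algebraMap_int_eq, eq_intCast, Complex.ofReal_neg,
    Complex.conj_ofReal, neg_mul, mul_neg, neg_neg]
  rw [← neg_div]
  congr 1
  ring

theorem qParam_negConj (h : ℝ) (w : ℍ) : 𝕢 h (negConj w) = conj (𝕢 h w) := by
  rw [Function.Periodic.qParam, Function.Periodic.qParam, ← Complex.exp_conj]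
  congr 1
  simp [map_ofNat]

/-- Combinations of `F` and the conjugate of its reflection are holomorphic at all cusps. -/
theorem hasCuspExpansions_combination {f : CuspForm (Gamma0 N) 2} {F : ℍ → ℂ}
    (hF : IsPrimitive f F) (a b : ℂ) :
    HasCuspExpansions N fun z => a * F z + b * conj (F (negConj z)) := by
  intro δ
  obtain ⟨A, hA, hAeq⟩ := hF.exists_cuspExpansion δ
  obtain ⟨B, hB, hBeq⟩ := hF.exists_cuspExpansion (Period.jConjSL δ)
  refine ⟨fun q => a * A q + b * conj (B (conj q)),
    fun q hq => DifferentiableAt.differentiableWithinAt ?_, fun w => ?_⟩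
  · have hq' : conj q ∈ ball (0 : ℂ) 1 := by simpa using hq
    have hBd : DifferentiableAt ℂ (fun q => conj (B (conj q))) q := by
      simpa [Function.comp_def] using
        (hB.differentiableAt (isOpen_ball.mem_nhds hq')).conj_conj
    exact ((hA.differentiableAt (isOpen_ball.mem_nhds hq)).const_mul a).add (hBd.const_mul b)
  · simp only [hAeq, negConj_smul, hBeq, qParam_negConj]

omit [NeZero N] in
theorem eq_zero_of_isPrimitive_const {f : CuspForm (Gamma0 N) 2} {F : ℍ → ℂ}
    (hF : IsPrimitive f F) {c : ℂ} (hc : ∀ z, F z = c) : f = 0 := by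
  ext τ
  have h : HasDerivAt (fun _ : ℂ => c) (f τ) τ := by
    simpa [Function.comp_def, hc] using hF τ
  simpa using h.unique (hasDerivAt_const (τ : ℂ) c)

/-- A cusp form all of whose periods are purely imaginary is zero. -/
theorem eq_zero_of_re_periodMap {f : CuspForm (Gamma0 N) 2}
    (h : ∀ γ : Gamma0 N, (periodMap N f (Additive.ofMul γ)).re = 0) : f = 0 := by
  obtain ⟨F, hF⟩ := exists_isPrimitive f
  obtain ⟨c, hc⟩ := exists_eq_const_of_re_invariant (N := N) (Φ := F) hF.exists_cuspExpansion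
    (fun γ z => by
      have h1 := h γ
      rw [periodMap_apply_of_isPrimitive hF γ z, Complex.sub_re] at h1
      linarith)
  exact eq_zero_of_isPrimitive_const hF hc

/-- If `p ∘ J = ε p` for the period hom `p` of `f`, with `ε = ±1`, then `f = 0`. -/
theorem eq_zero_of_periodMap_jConj {f : CuspForm (Gamma0 N) 2} {ε : ℝ} (hε : ε = 1 ∨ ε = -1)
    (h : ∀ γ : Gamma0 N, periodMap N f (Additive.ofMul (Period.jConjGamma0 N γ))
      = ε * periodMap N f (Additive.ofMul γ)) : f = 0 := by
  obtain ⟨F, hF⟩ := exists_isPrimitive f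
  have hσ : ∀ (γ : Gamma0 N) (z : ℍ),
      F (negConj ((γ : SL(2, ℤ)) • z)) - F (negConj z)
        = ε * (F ((γ : SL(2, ℤ)) • z) - F z) := fun γ z => by
    rw [negConj_smul, ← periodMap_apply_of_isPrimitive hF γ z, ← h γ,
      periodMap_apply_of_isPrimitive hF (Period.jConjGamma0 N γ) (negConj z),
      Period.jConjGamma0_coe]
  obtain ⟨c₁, hc₁⟩ := exists_eq_const_of_re_invariant (N := N)
    (hasCuspExpansions_combination hF 1 (-(ε : ℂ))) (fun γ z => by
      have h1 := congrArg Complex.re (hσ γ z)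
      rcases hε with rfl | rfl <;> simp at h1 ⊢ <;> linarith)
  obtain ⟨c₂, hc₂⟩ := exists_eq_const_of_re_invariant (N := N)
    (hasCuspExpansions_combination hF Complex.I (Complex.I * ε)) (fun γ z => by
      have h1 := congrArg Complex.im (hσ γ z)
      rcases hε with rfl | rfl <;> simp at h1 ⊢ <;> linarith)
  refine eq_zero_of_isPrimitive_const hF (c := (c₁ - Complex.I * c₂) / 2) fun z => ?_
  rw [← hc₁ z, ← hc₂ z]
  linear_combination (F z / 2 + (ε : ℂ) * conj (F (negConj z)) / 2) * Complex.I_mul_I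

/-- Injectivity of the pair period map. -/
theorem periodHomPair_injective : Function.Injective (periodHomPair N) := by
  rw [injective_iff_map_eq_zero]
  rintro ⟨f, g⟩ h
  have hval : ∀ γ : Gamma0 N,
      periodMap N f (Additive.ofMul γ) + periodMap N f (Additive.ofMul (Period.jConjGamma0 N γ))
        + (periodMap N g (Additive.ofMul γ)
          - periodMap N g (Additive.ofMul (Period.jConjGamma0 N γ))) = 0 := fun γ => by
    have h1 := DFunLike.congr_fun h (Additive.ofMul γ)
    rw [periodHomPair_eq] at h1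
    exact h1
  have hf : f = 0 := eq_zero_of_periodMap_jConj (ε := -1) (Or.inr rfl) fun γ => by
    have h1 := hval γ
    have h2 := hval (Period.jConjGamma0 N γ)
    rw [Period.jConjGamma0_jConjGamma0] at h2
    push_cast
    linear_combination (h1 + h2) / 2
  have hg : g = 0 := eq_zero_of_periodMap_jConj (ε := 1) (Or.inl rfl) fun γ => by
    have h1 := hval γ
    have h2 := hval (Period.jConjGamma0 N γ)
    rw [Period.jConjGamma0_jConjGamma0] at h2
    push_cast
    linear_combination (h2 - h1) / 2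
  rw [hf, hg]; rfl

end FLTAgent.Periods
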