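import Mathlib.GroupTheory.Schreier
import Mathlib.GroupTheory.FiniteAbelian.Basic
import Mathlib.LinearAlgebra.Complex.FiniteDimensional
import Fermat.Prelude.Def_ModularCurve_GenusNumerics
import Fermat.Agent.Dim.Gamma0Cosets
import Fermat.Agent.Periods.Cocycle
import Fermat.Agent.Periods.Injective

/-!
# The homology quotient `ParQuot N` and the period isomorphisms

The analytic lower bound and the combinatorial upper bound give `dim S₂ ≤ genus`. Given equality,
`ParQuot N` is free of rank twice the genus and the period maps are bijective.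
-/

set_option autoImplicit false

noncomputable section

namespace FLTAgent.Periods

open scoped MatrixGroups DirectSum
open CongruenceSubgroup ModularCurve

theorem sl2z_fg : Group.FG SL(2, ℤ) :=
  Group.fg_iff.mpr ⟨{ModularGroup.S, ModularGroup.T}, SpecialLinearGroup.SL2Z_generators,
    Set.toFinite _⟩

variable (N : ℕ) [NeZero N]

theorem parQuot_fg : AddGroup.FG (ParQuot N) := by
  have := sl2z_fg
  have : Group.FG (Gamma0 N) := Subgroup.fg_of_index_ne_zero (Gamma0 N)
  exact AddGroup.fg_of_surjective (parProj_surjective N)

theorem parQuot_moduleFinite : Module.Finite ℤ (ParQuot N) :=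
  Module.Finite.iff_addGroup_fg.mpr (parQuot_fg N)

/-- The periods of a cusp form, as a homomorphism on `ParQuot N`. -/
def parPeriod : CuspForm (Gamma0 N) 2 →ₗ[ℂ] (ParQuot N →+ ℂ) where
  toFun f := parLift (periodMap N f)
    (fun _ hγ => apply_eq_zero_of_isEllPar (isParabolicHom_periodMap f) hγ)
  map_add' f g := by
    refine parQuot_hom_ext (AddMonoidHom.ext fun x => ?_)
    simp only [AddMonoidHom.comp_apply, AddMonoidHom.add_apply, parLift_parProj]
    exact DFunLike.congr_fun (map_add (periodLin N) f g) x
  map_smul' c f := by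
    refine parQuot_hom_ext (AddMonoidHom.ext fun x => ?_)
    simp only [RingHom.id_apply, AddMonoidHom.comp_apply, AddMonoidHom.smul_apply, parLift_parProj]
    exact DFunLike.congr_fun (map_smul (periodLin N) c f) x

variable {N}

@[simp]
theorem parPeriod_parProj (f : CuspForm (Gamma0 N) 2) (x : Additive (Gamma0 N)) :
    parPeriod N f (parProj N x) = periodMap N f x := rfl

variable (N)

/-- Parabolic homomorphisms with complex values are the homomorphisms on `ParQuot N`. -/
def parabolicEquiv :
    (ParQuot N →+ ℂ) ≃ₗ[ℂ] Period.parabolicHoms ℂ (Gamma0 N) ℂ where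
  toFun ψ := ⟨ψ.comp (parProj N), isParabolicHom_comp_parProj ψ⟩
  map_add' _ _ := rfl
  map_smul' _ _ := rfl
  invFun φ := parLift (φ : Additive (Gamma0 N) →+ ℂ)
    (fun _ hγ => apply_eq_zero_of_isEllPar φ.2 hγ)
  left_inv ψ := parQuot_hom_ext (AddMonoidHom.ext fun x => by simp)
  right_inv φ := Subtype.ext (AddMonoidHom.ext fun x => by simp)

theorem periodHomPair_mem (p : CuspForm (Gamma0 N) 2 × CuspForm (Gamma0 N) 2) :
    periodHomPair N p ∈ Period.parabolicHoms ℂ (Gamma0 N) ℂ := by
  rw [periodHomPair_eq]
  have hf : periodMap N p.1 ∈ Period.parabolicHoms ℂ (Gamma0 N) ℂ := isParabolicHom_periodMap p.1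
  have hg : periodMap N p.2 ∈ Period.parabolicHoms ℂ (Gamma0 N) ℂ := isParabolicHom_periodMap p.2
  exact add_mem (add_mem hf (Period.charInvolution_mem_parabolicHoms N ℂ ℂ hf))
    (sub_mem hg (Period.charInvolution_mem_parabolicHoms N ℂ ℂ hg))

theorem parabolicHoms_finiteDimensional :
    FiniteDimensional ℂ (Period.parabolicHoms ℂ (Gamma0 N) ℂ) :=
  have := (finrank_parQuot_hom_le N ℂ).1
  Module.Finite.equiv (parabolicEquiv N)

theorem cuspForm_finiteDimensional : FiniteDimensional ℂ (CuspForm (Gamma0 N) 2) := by
  have := parabolicHoms_finiteDimensional N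
  let Φ := (periodHomPair N).codRestrict _ (periodHomPair_mem N)
  have hΦ : Function.Injective Φ := fun a b h =>
    periodHomPair_injective (congrArg Subtype.val h)
  have : FiniteDimensional ℂ (CuspForm (Gamma0 N) 2 × CuspForm (Gamma0 N) 2) :=
    Module.Finite.of_injective Φ hΦ
  exact Module.Finite.of_injective (LinearMap.inl ℂ _ (CuspForm (Gamma0 N) 2))
    LinearMap.inl_injective

theorem finrank_parQuot_hom_le_genus (K : Type*) [Field K] :
    (Module.finrank K (ParQuot N →+ K) : ℚ) ≤ 2 * genusFormula N := by
  have h := (finrank_parQuot_hom_le N K).2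
  rw [show Nat.card (Cosets N) = dedekindPsi N from
      (Subgroup.index_eq_card (Gamma0 N)).symm.trans (Dim.index_gamma0 N),
    Dim.card_fixed_S, Dim.card_fixed_ST, Dim.card_T_orbits] at h
  have hq : (6 * Module.finrank K (ParQuot N →+ K) + 3 * nuTwo N + 4 * nuThree N
      + 6 * cuspCount N : ℚ) ≤ dedekindPsi N + 12 := by exact_mod_cast h
  rw [genusFormula]
  linarith

/-- The periods give twice the dimension of the cusp forms inside `Hom(ParQuot N, ℂ)`. -/
theorem two_mul_finrank_le :
    2 * Module.finrank ℂ (CuspForm (Gamma0 N) 2) ≤ Module.finrank ℂ (ParQuot N →+ ℂ) := by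
  have := cuspForm_finiteDimensional N
  have := (finrank_parQuot_hom_le N ℂ).1
  have := parabolicHoms_finiteDimensional N
  have h := LinearMap.finrank_le_finrank_of_injective
    (f := (periodHomPair N).codRestrict _ (periodHomPair_mem N))
    (fun a b h => periodHomPair_injective (congrArg Subtype.val h))
  rw [Module.finrank_prod, ← (parabolicEquiv N).finrank_eq] at h
  omega

/-- One half of the dimension formula. -/
theorem finrank_le_genusFormula :
    (Module.finrank ℂ (CuspForm (Gamma0 N) 2) : ℚ) ≤ genusFormula N := by
  have h1 : (2 * Module.finrank ℂ (CuspForm (Gamma0 N) 2) : ℚ)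
      ≤ Module.finrank ℂ (ParQuot N →+ ℂ) := by exact_mod_cast two_mul_finrank_le N
  linarith [finrank_parQuot_hom_le_genus N ℂ]

section Conditional

variable {N}
variable (hdim : (Module.finrank ℂ (CuspForm (Gamma0 N) 2) : ℚ) = genusFormula N)
include hdim

theorem finrank_parQuot_hom_le_two_mul (K : Type*) [Field K] :
    Module.finrank K (ParQuot N →+ K) ≤ 2 * Module.finrank ℂ (CuspForm (Gamma0 N) 2) := by
  have h := finrank_parQuot_hom_le_genus N K
  rw [← hdim] at h
  exact_mod_cast h

theorem range_periodHomPair_of_dim :
    LinearMap.range (periodHomPair N) = Period.parabolicHoms ℂ (Gamma0 N) ℂ := by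
  have := cuspForm_finiteDimensional N
  have := parabolicHoms_finiteDimensional N
  refine Submodule.eq_of_le_of_finrank_le (LinearMap.range_le_iff_comap.mpr
    (Submodule.eq_top_iff'.mpr (periodHomPair_mem N))) ?_
  rw [LinearMap.finrank_range_of_inj (periodHomPair_injective (N := N)), Module.finrank_prod,
    ← (parabolicEquiv N).finrank_eq]
  have := finrank_parQuot_hom_le_two_mul hdim ℂ
  omega

/-- `ParQuot N` is free of rank twice the genus. -/
theorem parQuot_equiv_of_dim :
    Nonempty (ParQuot N ≃+ (Fin (2 * Module.finrank ℂ (CuspForm (Gamma0 N) 2)) → ℤ)) := by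
  classical
  have := parQuot_fg N
  obtain ⟨n, ι, hι, p, hp, e, ⟨eqv⟩⟩ := AddCommGroup.equiv_free_prod_directSum_zmod (G := ParQuot N)
  -- a homomorphism from values on the free coordinates and one torsion coordinate
  have lower : ∀ (K : Type) [Field K], n ≤ Module.finrank K (ParQuot N →+ K) := by
    intro K _
    have := (finrank_parQuot_hom_le N K).1
    let L : (Fin n → K) →ₗ[K] (ParQuot N →+ K) :=
      { toFun := fun v =>
          { toFun := fun m => ∑ j, ((eqv m).1 j : K) * v j
            map_zero' := by simp
            map_add' := fun a b => by simp [add_mul, Finset.sum_add_distrib] }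
        map_add' := fun v w => by ext m; simp [mul_add, Finset.sum_add_distrib]
        map_smul' := fun c v => by ext m; simp [Finset.mul_sum, mul_left_comm] }
    have hL : Function.Injective L := by
      rw [injective_iff_map_eq_zero]
      intro v hv
      funext j
      have h := DFunLike.congr_fun hv (eqv.symm (Finsupp.single j 1, 0))
      simpa [L, Finsupp.single_apply] using h
    simpa using LinearMap.finrank_le_finrank_of_injective hL
  have hn : n = 2 * Module.finrank ℂ (CuspForm (Gamma0 N) 2) := by
    refine le_antisymm ((lower ℂ).trans (finrank_parQuot_hom_le_two_mul hdim ℂ)) ?_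
    refine (two_mul_finrank_le N).trans ?_
    have := (finrank_parQuot_hom_le N ℂ).1
    let R : (ParQuot N →+ ℂ) →ₗ[ℂ] (Fin n → ℂ) :=
      { toFun := fun φ j => φ (eqv.symm (Finsupp.single j 1, 0))
        map_add' := fun _ _ => rfl
        map_smul' := fun _ _ => rfl }
    have hR : Function.Injective R := by
      rw [injective_iff_map_eq_zero]
      intro φ hφ
      have hfree : ∀ x : Fin n →₀ ℤ, φ (eqv.symm (x, 0)) = 0 := by
        intro x
        induction x using Finsupp.induction with
        | zero => simp [← Prod.zero_eq_mk]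
        | single_add j a x _ _ ih =>
          have h0 : φ (eqv.symm (Finsupp.single j 1, 0)) = 0 := congrFun hφ j
          have hsplit : (Finsupp.single j a + x, (0 : ⨁ i, ZMod (p i ^ e i)))
              = a • (Finsupp.single j 1, (0 : ⨁ i, ZMod (p i ^ e i))) + (x, 0) := by
            simp
          rw [hsplit, map_add, map_add, map_zsmul, map_zsmul, h0, ih, smul_zero, add_zero]
      have htors : ∀ y : ⨁ i, ZMod (p i ^ e i), φ (eqv.symm (0, y)) = 0 := by
        intro y
        induction y using DirectSum.induction_on with
        | zero => simp [← Prod.zero_eq_mk]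
        | of i a =>
          have h0 : (p i ^ e i) • ((0 : Fin n →₀ ℤ),
              DirectSum.of (fun i => ZMod (p i ^ e i)) i a) = 0 := by
            rw [Prod.smul_mk, smul_zero, ← map_nsmul, nsmul_eq_mul, ZMod.natCast_self, zero_mul,
              map_zero, Prod.zero_eq_mk]
          have h1 := congrArg (φ.comp eqv.symm.toAddMonoidHom) h0
          rw [map_nsmul, map_zero, nsmul_eq_mul] at h1
          exact (mul_eq_zero.mp h1).resolve_left
            (by exact_mod_cast pow_ne_zero _ (hp i).ne_zero)
        | add a b ha hb =>
          have hsplit : ((0 : Fin n →₀ ℤ), a + b) = (0, a) + (0, b) := by simp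
          rw [hsplit, map_add, map_add, ha, hb, add_zero]
      refine DFunLike.ext _ _ fun m => ?_
      have hm : m = eqv.symm ((eqv m).1, 0) + eqv.symm (0, (eqv m).2) := by
        rw [← map_add]; simp
      rw [hm, map_add, hfree, htors, add_zero]
      rfl
    simpa using LinearMap.finrank_le_finrank_of_injective hR
  have he : ∀ i, e i = 0 := by
    intro i
    by_contra hei
    have := Fact.mk (hp i)
    have := (finrank_parQuot_hom_le N (ZMod (p i))).1
    let c : ZMod (p i ^ e i) →+* ZMod (p i) := ZMod.castHom (dvd_pow_self _ hei) _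
    let L : (Fin n → ZMod (p i)) × ZMod (p i) →ₗ[ZMod (p i)] (ParQuot N →+ ZMod (p i)) :=
      { toFun := fun v =>
          { toFun := fun m => ∑ j, ((eqv m).1 j : ZMod (p i)) * v.1 j + c ((eqv m).2 i) * v.2
            map_zero' := by simp
            map_add' := fun a b => by simp [add_mul, Finset.sum_add_distrib]; ring }
        map_add' := fun v w => by ext m; simp [mul_add, Finset.sum_add_distrib]; ring
        map_smul' := fun a v => by ext m; simp [Finset.mul_sum, mul_left_comm, mul_add] }
    have hL : Function.Injective L := by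
      rw [injective_iff_map_eq_zero]
      intro v hv
      refine Prod.ext (funext fun j => ?_) ?_
      · have h := DFunLike.congr_fun hv (eqv.symm (Finsupp.single j 1, 0))
        simpa [L, Finsupp.single_apply] using h
      · have h := DFunLike.congr_fun hv
          (eqv.symm (0, DirectSum.of (fun i => ZMod (p i ^ e i)) i 1))
        simpa [L] using h
    have h1 := LinearMap.finrank_le_finrank_of_injective hL
    have h2 := finrank_parQuot_hom_le_two_mul hdim (ZMod (p i))
    simp at h1
    omega
  have hsub : Subsingleton (⨁ i, ZMod (p i ^ e i)) := by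
    refine ⟨fun a b => DFunLike.ext _ _ fun i => ?_⟩
    have : Subsingleton (ZMod (p i ^ e i)) := by
      rw [he i, pow_zero]; exact inferInstanceAs (Subsingleton (Fin 1))
    exact Subsingleton.elim _ _
  have := Unique.mk' (⨁ i, ZMod (p i ^ e i))
  refine ⟨((eqv.trans AddEquiv.prodUnique).trans
    (Finsupp.linearEquivFunOnFinite ℤ ℤ (Fin n)).toAddEquiv).trans ?_⟩
  exact (LinearEquiv.funCongrLeft ℤ ℤ (finCongr hn).symm).toAddEquiv

theorem parQuot_moduleFree_of_dim : Module.Free ℤ (ParQuot N) := by
  obtain ⟨eqv⟩ := parQuot_equiv_of_dim hdim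
  exact Module.Free.of_equiv eqv.symm.toIntLinearEquiv

/-- A cusp form of weight two is determined by the real parts of its periods, and every real
homomorphism on `ParQuot N` occurs. -/
theorem rePeriod_bijective_of_dim :
    Function.Bijective fun f : CuspForm (Gamma0 N) 2 =>
      Complex.reAddGroupHom.comp (parPeriod N f) := by
  have := cuspForm_finiteDimensional N
  obtain ⟨eqv⟩ := parQuot_equiv_of_dim hdim
  let : Module ℝ (CuspForm (Gamma0 N) 2) := Module.complexToReal _
  have : FiniteDimensional ℝ (CuspForm (Gamma0 N) 2) := FiniteDimensional.complexToReal _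
  let Φ : CuspForm (Gamma0 N) 2 →ₗ[ℝ]
      (Fin (2 * Module.finrank ℂ (CuspForm (Gamma0 N) 2)) → ℝ) :=
    { toFun := fun f j => (parPeriod N f (eqv.symm (Pi.single j 1))).re
      map_add' := fun f g => by ext j; simp
      map_smul' := fun r f => by
        ext j
        show (parPeriod N ((r : ℂ) • f) (eqv.symm (Pi.single j 1))).re = _
        simp }
  have key : ∀ φ ψ : ParQuot N →+ ℝ,
      (∀ j, φ (eqv.symm (Pi.single j 1)) = ψ (eqv.symm (Pi.single j 1))) → φ = ψ := by
    intro φ ψ h
    have h' : φ.comp eqv.symm.toAddMonoidHom = ψ.comp eqv.symm.toAddMonoidHom := by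
      refine AddMonoidHom.functions_ext' _ _ _ fun j => ?_
      ext
      exact h j
    exact DFunLike.ext _ _ fun m => by simpa using DFunLike.congr_fun h' (eqv m)
  have hinj : Function.Injective Φ := by
    rw [injective_iff_map_eq_zero]
    intro f hf
    refine eq_zero_of_re_periodMap fun γ => ?_
    have h := key (Complex.reAddGroupHom.comp (parPeriod N f)) 0 fun j => congrFun hf j
    simpa using DFunLike.congr_fun h (parProj N (Additive.ofMul γ))
  have hsurj : Function.Surjective Φ := by
    refine (LinearMap.injective_iff_surjective_of_finrank_eq_finrank ?_).mp hinj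
    rw [finrank_real_of_complex, Module.finrank_fintype_fun_eq_card, Fintype.card_fin]
  constructor
  · intro f g h
    exact hinj (funext fun j => DFunLike.congr_fun h (eqv.symm (Pi.single j 1)))
  · intro φ
    obtain ⟨f, hf⟩ := hsurj fun j => φ (eqv.symm (Pi.single j 1))
    exact ⟨f, key _ _ fun j => congrFun hf j⟩

end Conditional

end FLTAgent.Periods
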