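import Mathlib.Analysis.Complex.UpperHalfPlane.Manifold
import Fermat.Prelude.Def_CuspForm_HeckeAlgebra
import Fermat.Prelude.Sol.S_ModularForm_heckeT_slash_eq_self_of_mem_Gamma0
import Fermat.Agent.Periods.Structure

/-!
# Periods of Hecke translates: the transfer formula

If `g = ∑ f ∣ β i` and right multiplication by `γ` permutes the double coset representatives `β i`
with cofactors `δ i ∈ Γ₀(N)`, the period of `g` at `γ` is the sum of the periods of `f` at the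
`δ i`. The representatives of `T ℓ` and `U q` admit such cofactors.
-/

set_option autoImplicit false

noncomputable section

namespace FLTAgent.Periods

open scoped MatrixGroups ModularForm
open UpperHalfPlane hiding I
open CongruenceSubgroup ModularCurve

variable {N : ℕ} [NeZero N]

/-- `σ` and `δ` describe how right multiplication by `γ` permutes the representatives `β`. -/
def IsTransfer {ι : Type*} (β : ι → GL (Fin 2) ℝ) (γ : Gamma0 N) (σ : ι → ι) (δ : ι → Gamma0 N) :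
    Prop :=
  ∀ i, β i * ((γ : SL(2, ℤ)) : GL (Fin 2) ℝ) = ((δ i : SL(2, ℤ)) : GL (Fin 2) ℝ) * β (σ i)

omit [NeZero N] in
theorem hasDerivAt_primitive_comp_gl {f : CuspForm (Gamma0 N) 2} {F : ℍ → ℂ} (hF : IsPrimitive f F)
    {b : GL (Fin 2) ℝ} (hb : 0 < b.det.val) (τ : ℍ) :
    HasDerivAt (fun z : ℂ => F (b • ofComplex z)) ((⇑f ∣[(2 : ℤ)] b) τ) τ := by
  have hb' : 0 < b.val.det := by rwa [← Matrix.GeneralLinearGroup.val_det_apply]
  have h1 := (hasStrictDerivAt_smul hb' τ).hasDerivAt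
  have h3 : HasDerivAt (F ∘ ofComplex) (f (b • τ))
      ((fun z : ℂ => (b • ofComplex z : ℍ).1) (τ : ℂ)) := by
    simpa only [ofComplex_apply] using! hF (b • τ)
  have h4 := h3.comp (τ : ℂ) h1
  refine (h4.congr_deriv ?_).congr_of_eventuallyEq (.of_forall fun z => ?_)
  · rw [ModularForm.slash_apply, UpperHalfPlane.σ, if_pos hb, abs_of_pos hb]
    simp [div_eq_mul_inv, mul_assoc, zpow_neg, Matrix.GeneralLinearGroup.val_det_apply]
  · simp only [Function.comp_apply]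
    exact congrArg F (ofComplex_apply _).symm

/-- The transfer formula for periods. -/
theorem periodMap_eq_sum_transfer {ι : Type*} [Fintype ι] (f g : CuspForm (Gamma0 N) 2)
    (β : ι → GL (Fin 2) ℝ) (hβ : ∀ i, 0 < (β i).det.val)
    (hg : ⇑g = ∑ i, ⇑f ∣[(2 : ℤ)] β i) (γ : Gamma0 N) (σ : Equiv.Perm ι) (δ : ι → Gamma0 N)
    (h : IsTransfer β γ σ δ) :
    periodMap N g (Additive.ofMul γ) = ∑ i, periodMap N f (Additive.ofMul (δ i)) := by
  obtain ⟨F, hF⟩ := exists_isPrimitive f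
  have hG : IsPrimitive g fun z => ∑ i, F (β i • z) := fun τ => by
    rw [hg, Finset.sum_apply]
    exact HasDerivAt.fun_sum fun i _ => hasDerivAt_primitive_comp_gl hF (hβ i) τ
  rw [periodMap_apply_of_isPrimitive hG γ UpperHalfPlane.I,
    ← Equiv.sum_comp σ (fun i => F (β i • UpperHalfPlane.I)), ← Finset.sum_sub_distrib]
  refine Finset.sum_congr rfl fun i _ => ?_
  rw [periodMap_apply_of_isPrimitive hF (δ i) (β (σ i) • UpperHalfPlane.I)]
  congr 2
  rw [ModularGroup.sl_moeb, ModularGroup.sl_moeb, ← mul_smul, ← mul_smul, h i]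

section Families

open P2MW.S_ModularForm_heckeT_slash_eq_self_of_mem_Gamma0.ModularForm.HeckeSlashInvariance
  in
omit [NeZero N] in
/-- The representatives of `U q`. -/
theorem exists_isTransfer_heckeMatrix {q : ℕ} [NeZero q] (hqN : q ∣ N) (γ : Gamma0 N) :
    ∃ (σ : Equiv.Perm (ZMod q)) (δ : ZMod q → Gamma0 N),
      IsTransfer (fun x : ZMod q => ModularForm.heckeMatrix q x.val) γ σ δ := by
  have hcN : (N : ℤ) ∣ (γ : SL(2, ℤ)) 1 0 :=
    (ZMod.intCast_zmod_eq_zero_iff_dvd _ _).mp (Gamma0_mem.mp γ.2)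
  have hc : (q : ℤ) ∣ (γ : SL(2, ℤ)) 1 0 := (Int.natCast_dvd_natCast.mpr hqN).trans hcN
  choose g hg hmul using fun x => heckeMatrix_mul_of_dvd (γ : SL(2, ℤ)) hc x
  refine ⟨_, fun x => ⟨g x, ?_⟩, hmul⟩
  rw [Gamma0_mem, hg x]
  push_cast
  rw [Gamma0_mem.mp γ.2, mul_zero]

/-- The representatives of `T ℓ`, indexed by the projective line over `ZMod ℓ`. -/
def tRep (ℓ : ℕ) : Option (ZMod ℓ) → GL (Fin 2) ℝ
  | none => ModularForm.heckeDiagMatrix ℓ
  | some x => ModularForm.heckeMatrix ℓ x.val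

open P2MW.S_ModularForm_heckeT_slash_eq_self_of_mem_Gamma0.ModularForm.HeckeSlashInvariance
  in
omit [NeZero N] in
theorem exists_isTransfer_tRep {ℓ : ℕ} [Fact ℓ.Prime] (hℓN : ¬ ℓ ∣ N) (γ : Gamma0 N) :
    ∃ (σ : Equiv.Perm (Option (ZMod ℓ))) (δ : Option (ZMod ℓ) → Gamma0 N),
      IsTransfer (tRep ℓ) γ σ δ := by
  have hcN : (N : ℤ) ∣ (γ : SL(2, ℤ)) 1 0 :=
    (ZMod.intCast_zmod_eq_zero_iff_dvd _ _).mp (Gamma0_mem.mp γ.2)
  have hrep : ∀ x : OnePoint (ZMod ℓ), tRep ℓ x = heckeRep ℓ x := fun x => by cases x <;> rfl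
  choose g hg hmul using fun x => heckeRep_mul hℓN (γ : SL(2, ℤ)) hcN x
  refine ⟨MulAction.toPerm (α := GL (Fin 2) (ZMod ℓ)) (β := OnePoint (ZMod ℓ))
      (redMatrix ℓ (γ : SL(2, ℤ))),
    fun x => ⟨g x, Gamma0_mem.mpr ((ZMod.intCast_zmod_eq_zero_iff_dvd _ _).mpr (hg x))⟩, ?_⟩
  exact fun x => ((congrArg (· * _) (hrep x)).trans (hmul x)).trans
    (congrArg (fun b => Matrix.SpecialLinearGroup.mapGL ℝ (g x) * b) (hrep _).symm)

theorem tRep_det_pos (ℓ : ℕ) (x : Option (ZMod ℓ)) : 0 < (tRep ℓ x).det.val := by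
  cases x
  · exact ModularForm.det_heckeDiagMatrix_pos ℓ
  · exact ModularForm.det_heckeMatrix_pos ℓ _

end Families

open P2MW.S_ModularForm_heckeT_slash_eq_self_of_mem_Gamma0.ModularForm.HeckeSlashInvariance in
omit [NeZero N] in
theorem coe_heckeTLin_eq_sum (f : CuspForm (Gamma0 N) 2) {ℓ : ℕ} (hℓ : ℓ.Prime) (hℓN : ¬ ℓ ∣ N)
    [NeZero ℓ] :
    ⇑(CuspForm.heckeTLin 2 hℓ hℓN f) = ∑ x : Option (ZMod ℓ), ⇑f ∣[(2 : ℤ)] tRep ℓ x := by
  rw [CuspForm.coe_heckeTLin_apply, ModularForm.heckeT_eq_heckeU_add, heckeU_eq_sum_zmod, add_comm,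
    Fintype.sum_option]
  rfl

open P2MW.S_ModularForm_heckeT_slash_eq_self_of_mem_Gamma0.ModularForm.HeckeSlashInvariance in
theorem coe_heckeULin_eq_sum (f : CuspForm (Gamma0 N) 2) {q : ℕ} [NeZero q] (hqN : q ∣ N) :
    ⇑(CuspForm.heckeULin 2 hqN f)
      = ∑ x : ZMod q, ⇑f ∣[(2 : ℤ)] ModularForm.heckeMatrix q x.val := by
  rw [CuspForm.coe_heckeULin_apply, heckeU_eq_sum_zmod]

/-- The periods of `T ℓ f`. -/
theorem parPeriod_heckeTLin (f : CuspForm (Gamma0 N) 2) {ℓ : ℕ} (hℓ : ℓ.Prime) (hℓN : ¬ ℓ ∣ N)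
    [NeZero ℓ] (γ : Gamma0 N) (σ : Equiv.Perm (Option (ZMod ℓ))) (δ : Option (ZMod ℓ) → Gamma0 N)
    (h : IsTransfer (tRep ℓ) γ σ δ) :
    parPeriod N (CuspForm.heckeTLin 2 hℓ hℓN f) (parProj N (Additive.ofMul γ))
      = ∑ x, parPeriod N f (parProj N (Additive.ofMul (δ x))) := by
  simp only [parPeriod_parProj]
  exact periodMap_eq_sum_transfer f _ _ (tRep_det_pos ℓ) (coe_heckeTLin_eq_sum f hℓ hℓN) γ σ δ h

/-- The periods of `U q f`. -/
theorem parPeriod_heckeULin (f : CuspForm (Gamma0 N) 2) {q : ℕ} [NeZero q] (hqN : q ∣ N)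
    (γ : Gamma0 N) (σ : Equiv.Perm (ZMod q)) (δ : ZMod q → Gamma0 N)
    (h : IsTransfer (fun x : ZMod q => ModularForm.heckeMatrix q x.val) γ σ δ) :
    parPeriod N (CuspForm.heckeULin 2 hqN f) (parProj N (Additive.ofMul γ))
      = ∑ x, parPeriod N f (parProj N (Additive.ofMul (δ x))) := by
  simp only [parPeriod_parProj]
  exact periodMap_eq_sum_transfer f _ _ (fun _ => ModularForm.det_heckeMatrix_pos q _)
    (coe_heckeULin_eq_sum f hqN) γ σ δ h

end FLTAgent.Periods
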