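import Fermat.Agent.Periods.Structure
import Fermat.Agent.S20

/-!
# Unconditional forms of the period isomorphisms
-/

set_option autoImplicit false

noncomputable section

namespace FLTAgent.Periods

open CongruenceSubgroup ModularCurve

variable (N : ℕ) [NeZero N]

/-- The hypothesis `hdim` of the period library. -/
theorem hdim : (Module.finrank ℂ (CuspForm (Gamma0 N) 2) : ℚ) = genusFormula N :=
  Fermat.Agent.S20.result N

theorem parQuot_equiv :
    Nonempty (ParQuot N ≃+ (Fin (2 * Module.finrank ℂ (CuspForm (Gamma0 N) 2)) → ℤ)) :=
  parQuot_equiv_of_dim (hdim N)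

theorem parQuot_moduleFree : Module.Free ℤ (ParQuot N) :=
  parQuot_moduleFree_of_dim (hdim N)

end FLTAgent.Periods
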