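import Fermat.Agent.Periods.Transfer

/-!
# The Hecke action on `Hom(ParQuot N, ℤ)`

The real parts of the periods identify `S₂(Γ₀(N))` with `Hom(ParQuot N, ℝ)`, in which the integral
homomorphisms form a lattice stable under the Hecke operators, by the transfer formula.
-/

set_option autoImplicit false

noncomputable section

namespace FLTAgent.Periods

open scoped MatrixGroups
open CongruenceSubgroup ModularCurve

variable {N : ℕ} [NeZero N]

/-- The real parts of the periods. -/
def rePeriod (N : ℕ) [NeZero N] : CuspForm (Gamma0 N) 2 →+ (ParQuot N →+ ℝ) where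
  toFun f := Complex.reAddGroupHom.comp (parPeriod N f)
  map_zero' := by ext; simp
  map_add' f g := by ext; simp

@[simp]
theorem rePeriod_apply (f : CuspForm (Gamma0 N) 2) (x : ParQuot N) :
    rePeriod N f x = (parPeriod N f x).re := rfl

/-- Integral homomorphisms as real ones. -/
def castHom (N : ℕ) : (ParQuot N →+ ℤ) →+ (ParQuot N →+ ℝ) where
  toFun φ := (Int.castAddHom ℝ).comp φ
  map_zero' := by ext; simp
  map_add' φ ψ := by ext; simp

omit [NeZero N] in
@[simp]
theorem castHom_apply (φ : ParQuot N →+ ℤ) (x : ParQuot N) : castHom N φ x = φ x := rfl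

omit [NeZero N] in
theorem castHom_injective : Function.Injective (castHom N) := by
  intro φ ψ h
  refine DFunLike.ext _ _ fun x => ?_
  simpa using DFunLike.congr_fun h x

/-- The cusp forms whose real periods are integers. -/
def periodLattice (N : ℕ) [NeZero N] : AddSubgroup (CuspForm (Gamma0 N) 2) :=
  (castHom N).range.comap (rePeriod N)

theorem mem_periodLattice {f : CuspForm (Gamma0 N) 2} :
    f ∈ periodLattice N ↔ ∃ φ, castHom N φ = rePeriod N f := Iff.rfl

theorem mem_periodLattice_of_forall {f : CuspForm (Gamma0 N) 2}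
    (h : ∀ γ : Gamma0 N, ∃ n : ℤ, (parPeriod N f (parProj N (Additive.ofMul γ))).re = n) :
    f ∈ periodLattice N := by
  have h' : ∀ x : ParQuot N, ∃ n : ℤ, (parPeriod N f x).re = n := fun x => by
    obtain ⟨γ, rfl⟩ := parProj_surjective N x
    exact h (Additive.toMul γ)
  choose n hn using h'
  refine ⟨{ toFun := n, map_zero' := ?_, map_add' := fun x y => ?_ }, ?_⟩
  · have := hn 0
    simp only [map_zero, Complex.zero_re] at this
    exact_mod_cast this.symm
  · have h1 : ((n (x + y) : ℤ) : ℝ) = n x + n y := by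
      rw [← hn, ← hn, ← hn, map_add, Complex.add_re]
    exact_mod_cast h1
  · exact DFunLike.ext _ _ fun x => (hn x).symm

/-- A transfer sum of integers is an integer. -/
theorem exists_int_of_sum {f : CuspForm (Gamma0 N) 2} (hf : f ∈ periodLattice N) {ι : Type*}
    [Fintype ι] (δ : ι → Gamma0 N) :
    ∃ n : ℤ, (∑ i, parPeriod N f (parProj N (Additive.ofMul (δ i)))).re = n := by
  obtain ⟨φ, hφ⟩ := mem_periodLattice.mp hf
  refine ⟨∑ i, φ (parProj N (Additive.ofMul (δ i))), ?_⟩
  rw [Complex.re_sum, Int.cast_sum]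
  exact Finset.sum_congr rfl fun i _ => (DFunLike.congr_fun hφ _).symm

variable {S : Set ℕ}

theorem heckeAlgebra_mem_periodLattice (t : CuspForm.heckeAlgebra N 2 S)
    {f : CuspForm (Gamma0 N) 2} (hf : f ∈ periodLattice N) :
    (t : Module.End ℂ (CuspForm (Gamma0 N) 2)) f ∈ periodLattice N := by
  obtain ⟨t, ht⟩ := t
  induction ht using Algebra.adjoin_induction generalizing f with
  | mem x hx =>
    refine mem_periodLattice_of_forall fun γ => ?_
    rcases hx with ⟨ℓ, hℓ, hℓN, -, rfl⟩ | ⟨q, hqN, hq, -, rfl⟩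
    · have : Fact ℓ.Prime := ⟨hℓ⟩
      have : NeZero ℓ := ⟨hℓ.ne_zero⟩
      obtain ⟨σ, δ, h⟩ := exists_isTransfer_tRep hℓN γ
      show ∃ n : ℤ, (parPeriod N (CuspForm.heckeTLin 2 hℓ hℓN f) _).re = n
      rw [parPeriod_heckeTLin f hℓ hℓN γ σ δ h]
      exact exists_int_of_sum hf δ
    · have : NeZero q := ⟨hq.ne_zero⟩
      obtain ⟨σ, δ, h⟩ := exists_isTransfer_heckeMatrix hqN γ
      show ∃ n : ℤ, (parPeriod N (CuspForm.heckeULin 2 hqN f) _).re = n
      rw [parPeriod_heckeULin f hqN γ σ δ h]
      exact exists_int_of_sum hf δ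
  | algebraMap r =>
    simp only [Algebra.algebraMap_eq_smul_one, LinearMap.smul_apply, Module.End.one_apply]
    exact zsmul_mem hf r
  | add x y _ _ hx hy => exact add_mem (hx hf) (hy hf)
  | mul x y _ _ hx hy => exact hx (hy hf)

variable (hdim : (Module.finrank ℂ (CuspForm (Gamma0 N) 2) : ℚ) = genusFormula N)

/-- The real period isomorphism. -/
def rePeriodEquiv : CuspForm (Gamma0 N) 2 ≃+ (ParQuot N →+ ℝ) :=
  AddEquiv.ofBijective (rePeriod N) (rePeriod_bijective_of_dim hdim)

/-- The cusp form with the given integral real periods. -/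
def latticeForm : (ParQuot N →+ ℤ) →+ CuspForm (Gamma0 N) 2 :=
  (rePeriodEquiv hdim).symm.toAddMonoidHom.comp (castHom N)

theorem rePeriod_latticeForm (φ : ParQuot N →+ ℤ) :
    rePeriod N (latticeForm hdim φ) = castHom N φ :=
  (rePeriodEquiv hdim).apply_symm_apply _

theorem latticeForm_injective : Function.Injective (latticeForm hdim) :=
  (rePeriodEquiv hdim).symm.injective.comp castHom_injective

theorem latticeForm_mem (φ : ParQuot N →+ ℤ) : latticeForm hdim φ ∈ periodLattice N :=
  ⟨φ, (rePeriod_latticeForm hdim φ).symm⟩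

theorem exists_latticeForm {f : CuspForm (Gamma0 N) 2} (hf : f ∈ periodLattice N) :
    ∃ φ, latticeForm hdim φ = f := by
  obtain ⟨φ, hφ⟩ := mem_periodLattice.mp hf
  exact ⟨φ, (rePeriod_bijective_of_dim hdim).1 ((rePeriod_latticeForm hdim φ).trans hφ)⟩

/-- A Hecke operator on integral homomorphisms. -/
def heckeActFun (t : CuspForm.heckeAlgebra N 2 S) (φ : ParQuot N →+ ℤ) : ParQuot N →+ ℤ :=
  (exists_latticeForm hdim
    (heckeAlgebra_mem_periodLattice t (latticeForm_mem hdim φ))).choose

theorem latticeForm_heckeActFun (t : CuspForm.heckeAlgebra N 2 S) (φ : ParQuot N →+ ℤ) :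
    latticeForm hdim (heckeActFun hdim t φ)
      = (t : Module.End ℂ (CuspForm (Gamma0 N) 2)) (latticeForm hdim φ) :=
  (exists_latticeForm hdim
    (heckeAlgebra_mem_periodLattice t (latticeForm_mem hdim φ))).choose_spec

variable (S) in
/-- The Hecke algebra acts on `Hom(ParQuot N, ℤ)`. -/
def heckeAct : CuspForm.heckeAlgebra N 2 S →+* Module.End ℤ (ParQuot N →+ ℤ) where
  toFun t := AddMonoidHom.toIntLinearMap
    { toFun := heckeActFun hdim t
      map_zero' := latticeForm_injective hdim (by rw [latticeForm_heckeActFun]; simp)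
      map_add' := fun φ ψ => latticeForm_injective hdim (by
        rw [map_add, latticeForm_heckeActFun, latticeForm_heckeActFun, latticeForm_heckeActFun,
          map_add, map_add]) }
  map_one' := LinearMap.ext fun φ => latticeForm_injective hdim (latticeForm_heckeActFun hdim 1 φ)
  map_mul' s t := LinearMap.ext fun φ => latticeForm_injective hdim (by
    show latticeForm hdim (heckeActFun hdim (s * t) φ)
      = latticeForm hdim (heckeActFun hdim s (heckeActFun hdim t φ))
    rw [latticeForm_heckeActFun, latticeForm_heckeActFun, latticeForm_heckeActFun]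
    rfl)
  map_zero' := LinearMap.ext fun φ => latticeForm_injective hdim (by
    show latticeForm hdim (heckeActFun hdim 0 φ) = latticeForm hdim 0
    rw [latticeForm_heckeActFun]; simp)
  map_add' s t := LinearMap.ext fun φ => latticeForm_injective hdim (by
    show latticeForm hdim (heckeActFun hdim (s + t) φ)
      = latticeForm hdim (heckeActFun hdim s φ + heckeActFun hdim t φ)
    rw [map_add, latticeForm_heckeActFun, latticeForm_heckeActFun, latticeForm_heckeActFun]
    rfl)

theorem latticeForm_heckeAct (t : CuspForm.heckeAlgebra N 2 S) (φ : ParQuot N →+ ℤ) :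
    latticeForm hdim (heckeAct S hdim t φ)
      = (t : Module.End ℂ (CuspForm (Gamma0 N) 2)) (latticeForm hdim φ) :=
  latticeForm_heckeActFun hdim t φ

/-- The transfer formula for the action of `T ℓ`. -/
theorem heckeAct_T_apply {ℓ : ℕ} (hℓ : ℓ.Prime) (hℓN : ¬ ℓ ∣ N) (hℓS : ℓ ∉ S) [NeZero ℓ]
    (φ : ParQuot N →+ ℤ) (γ : Gamma0 N) (σ : Equiv.Perm (Option (ZMod ℓ)))
    (δ : Option (ZMod ℓ) → Gamma0 N) (h : IsTransfer (tRep ℓ) γ σ δ) :
    heckeAct S hdim (CuspForm.heckeAlgebra.T hℓ hℓN hℓS) φ (parProj N (Additive.ofMul γ))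
      = ∑ x, φ (parProj N (Additive.ofMul (δ x))) := by
  have e : ∀ (ψ : ParQuot N →+ ℤ) (x : ParQuot N),
      (ψ x : ℝ) = (parPeriod N (latticeForm hdim ψ) x).re := fun ψ x =>
    (DFunLike.congr_fun (rePeriod_latticeForm hdim ψ) x).symm
  apply Int.cast_injective (α := ℝ)
  rw [Int.cast_sum, e, latticeForm_heckeAct, CuspForm.heckeAlgebra.coe_T,
    parPeriod_heckeTLin _ hℓ hℓN γ σ δ h, Complex.re_sum]
  exact Finset.sum_congr rfl fun x _ => (e φ _).symm

/-- The transfer formula for the action of `U q`. -/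
theorem heckeAct_U_apply {q : ℕ} (hq : q.Prime) (hqN : q ∣ N) (hqS : q ∉ S) [NeZero q]
    (φ : ParQuot N →+ ℤ) (γ : Gamma0 N) (σ : Equiv.Perm (ZMod q))
    (δ : ZMod q → Gamma0 N)
    (h : IsTransfer (fun x : ZMod q => ModularForm.heckeMatrix q x.val) γ σ δ) :
    heckeAct S hdim (CuspForm.heckeAlgebra.U hq hqN hqS) φ (parProj N (Additive.ofMul γ))
      = ∑ x, φ (parProj N (Additive.ofMul (δ x))) := by
  have e : ∀ (ψ : ParQuot N →+ ℤ) (x : ParQuot N),
      (ψ x : ℝ) = (parPeriod N (latticeForm hdim ψ) x).re := fun ψ x =>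
    (DFunLike.congr_fun (rePeriod_latticeForm hdim ψ) x).symm
  apply Int.cast_injective (α := ℝ)
  rw [Int.cast_sum, e, latticeForm_heckeAct, CuspForm.heckeAlgebra.coe_U,
    parPeriod_heckeULin _ hqN γ σ δ h, Complex.re_sum]
  exact Finset.sum_congr rfl fun x _ => (e φ _).symm

include hdim in
/-- A complex linear map killing the period lattice is zero. -/
theorem end_eq_zero_of_periodLattice (T : Module.End ℂ (CuspForm (Gamma0 N) 2))
    (h : ∀ f ∈ periodLattice N, T f = 0) : T = 0 := by
  obtain ⟨eqv⟩ := parQuot_equiv_of_dim hdim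
  let n := 2 * Module.finrank ℂ (CuspForm (Gamma0 N) 2)
  let e : Fin n → (ParQuot N →+ ℤ) := fun j =>
    (Pi.evalAddMonoidHom (fun _ : Fin n => ℤ) j).comp eqv.toAddMonoidHom
  refine LinearMap.ext fun f => ?_
  let r : Fin n → ℝ := fun j => rePeriod N f (eqv.symm (Pi.single j 1))
  have hf : f = ∑ j, (r j : ℂ) • latticeForm hdim (e j) := by
    refine (rePeriod_bijective_of_dim hdim).1 (show rePeriod N f = rePeriod N _ from ?_)
    refine DFunLike.ext _ _ fun x => ?_
    have hx : x = ∑ j, (eqv x j) • eqv.symm (Pi.single j 1) := by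
      apply eqv.injective
      rw [map_sum]
      simp only [map_zsmul, AddEquiv.apply_symm_apply]
      exact pi_eq_sum_univ' (eqv x)
    have hsum : rePeriod N f x = ∑ j, (eqv x j : ℝ) * r j := by
      conv_lhs => rw [hx, map_sum]
      simp [r]
    rw [hsum, rePeriod_apply, map_sum, AddMonoidHom.finsetSum_apply, Complex.re_sum]
    refine Finset.sum_congr rfl fun j _ => ?_
    have hj : (parPeriod N (latticeForm hdim (e j)) x).re = eqv x j :=
      DFunLike.congr_fun (rePeriod_latticeForm hdim (e j)) x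
    rw [map_smul, AddMonoidHom.smul_apply, smul_eq_mul, Complex.re_ofReal_mul, hj, mul_comm]
  rw [hf, map_sum]
  refine Finset.sum_eq_zero fun j _ => ?_
  rw [map_smul, h _ (latticeForm_mem hdim (e j)), smul_zero]

theorem heckeAct_injective : Function.Injective (heckeAct S hdim) := by
  rw [injective_iff_map_eq_zero]
  intro t ht
  refine Subtype.ext (end_eq_zero_of_periodLattice hdim _ fun f hf => ?_)
  obtain ⟨φ, rfl⟩ := exists_latticeForm hdim hf
  rw [← latticeForm_heckeAct, ht]
  simp

end FLTAgent.Periods
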